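import Fermat.Agent.BAD.Cover.Ramify

/-!
# The reductions of a curve with two glued reductions fill the residue field

Write `z` as a quotient of two members of some `L(m B)` vanishing at the glued points; these lift.
-/

set_option autoImplicit false

attribute [local instance 10000] SubalgebraClass.toAlgebra HahnSeries.powerSeriesAlgebra

noncomputable section

open AlgebraicCurve

namespace Fermat.BAD.Cover

open Fermat.FF Fermat.RED.Model Fermat.BAD

variable {L : Type*} [Field L] {A : ValuationSubring L}
variable {k : Type*} [Field k] [IsAlgClosed L] [IsAlgClosed k]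
variable {F : Type*} [Field F] [Algebra L F]
variable {π : A →+* k} {ι : Bool → F →+* LaurentSeries L}
  {K : IntermediateField k (LaurentSeries k)}
variable [FF.IsFunctionField L F] [FF.IsFunctionField k K]

/-- Every element of the residue field is a reduction. -/
theorem exists_red (X : Degen π ι K) (b : Bool) (z : K) :
    ∃ x : F, x ∈ gInt π (ι b) ∧ X.red b x = z := by
  classical
  rcases eq_or_ne z 0 with rfl | hz
  · exact ⟨0, zero_mem _, X.red_zero b⟩
  let P : Divisor k K := (divOf k z).mapRange (fun x => max (-x) 0) (by simp)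
  have hP : ∀ v, P v = max (-(v.ord z)) 0 := fun v => by simp [P]
  let G : Divisor k K := ∑ s ∈ glued X b, Finsupp.single s 1
  have hG : ∀ v, G v = if v ∈ glued X b then 1 else 0 := fun v => by
    simp [G, Finsupp.finsetSum_apply, Finsupp.single_apply]
  obtain ⟨m, hmN, hm⟩ : ∃ m : ℕ, X.N0 ≤ m ∧
      (genusFF k K : ℤ) ≤ Divisor.degree (m • X.B - G - P) := by
    set n := X.N0 + genusFF k K + (Divisor.degree G).toNat + (Divisor.degree P).toNat with hn
    refine ⟨n, by omega, ?_⟩
    rw [map_sub, map_sub]
    have := X.le_degree_nsmul_B n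
    have h1 := Int.self_le_toNat (Divisor.degree G)
    have h2 := Int.self_le_toNat (Divisor.degree P)
    omega
  -- a nonzero `a` with `a` and `z * a` in `L(m B)`, both vanishing at the glued points
  obtain ⟨a, ha, ha0⟩ : ∃ a ∈ riemannRochSpace (m • X.B - G - P), a ≠ 0 := by
    have h1 := riemann_inequality (m • X.B - G - P)
    by_contra hcon
    push Not at hcon
    have h0 : riemannRochSpace (m • X.B - G - P) = ⊥ := (Submodule.eq_bot_iff _).mpr hcon
    have : ell (m • X.B - G - P) = 0 := by rw [ell, h0, finrank_bot]
    omega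
  have hboth : ∀ u ∈ ({a, z * a} : Set K), u ∈ riemannRochSpace (m • X.B - G) := by
    intro u hu
    rcases hu with rfl | rfl
    · exact riemannRochSpace_mono (sub_le_self _ (Finsupp.le_def.mpr fun v => by
        rw [hP]; exact le_max_right _ _)) ha
    · rw [mem_riemannRochSpace]
      intro v
      refine ((ordGE_ord v z).mul (mem_riemannRochSpace.mp ha v)).mono ?_
      simp only [Finsupp.sub_apply, hP]
      have := le_max_left (-(v.ord z)) 0
      omega
  -- such functions, paired with zero on the other component, satisfy the gluing condition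
  have hlift : ∀ u ∈ ({a, z * a} : Set K), ∃ f : F, f ∈ gInt π (ι b) ∧ X.red b f = u := by
    intro u hu
    have hu' := hboth u hu
    have huB : u ∈ riemannRochSpace (m • X.B) := riemannRochSpace_mono
      (sub_le_self _ (Finsupp.le_def.mpr fun v => by rw [hG]; split <;> simp)) hu'
    have hvan : ∀ s ∈ glued X b, evalAt s u = 0 := fun s hs => by
      refine (evalAt_eq_zero_iff (X.ordGE_S huB (B_glued X hs))).mpr ?_
      refine (mem_riemannRochSpace.mp hu' s).mono ?_
      simp [hG, if_pos hs, B_glued X hs]
    let Q : Bool → K := fun c => if c = b then u else 0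
    have hz0 : ∀ s : Place k K, evalAt s (0 : K) = 0 := fun s => by
      simpa using evalAt_algebraMap s (0 : k)
    have hQ : Q ∈ X.glueSp (fun _ => 1) m := by
      refine ⟨fun c => ?_, fun s hs => ?_⟩
      · by_cases hc : c = b
        · simp only [Q, if_pos hc]; exact huB
        · simp only [Q, if_neg hc]; exact zero_mem _
      · cases b
        · simp only [Q, if_true, if_false, Bool.true_eq_false, hz0, one_mul]
          exact (hvan _ (Finset.mem_image_of_mem _ hs)).symm
        · simp only [Q, if_true, if_false, Bool.false_eq_true, hz0, one_mul]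
          exact hvan s hs
    obtain ⟨f, -, hfO, hf⟩ := X.exists_lift hmN hQ
    exact ⟨f, X.int_of_mem_O hfO b, by rw [hf]; simp [Q]⟩
  obtain ⟨fa, hfa, ea⟩ := hlift a (by simp)
  obtain ⟨fz, hfz, ez⟩ := hlift (z * a) (by simp)
  obtain ⟨hinv, einv⟩ := X.prim_inv (b := b) (f := fa) ⟨hfa, by rw [ea]; exact ha0⟩
  refine ⟨fz * fa⁻¹, mul_mem hfz hinv.1, ?_⟩
  rw [X.red_mul hfz hinv.1, einv, ez, ea, mul_inv_cancel_right₀ ha0]

end Fermat.BAD.Cover

end
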