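import Fermat.Agent.BAD.Cover.Residue
import Fermat.Agent.BAD.Cover.Surj

/-!
# Integrality and reduction on the cover, line by line

A function is integral at a component only if each of its lines is, so reductions are computed
line by line; hence both components have residue field `K₀(H)`, and reduction is onto it.
-/

set_option autoImplicit false

attribute [local instance 10000] SubalgebraClass.toAlgebra HahnSeries.powerSeriesAlgebra

noncomputable section

namespace Fermat.BAD.Cover

open Fermat.RED.Model Fermat.BAD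

variable {L : Type*} [Field L] {A : ValuationSubring L}
variable {k : Type*} [Field k] [IsAlgClosed L] [IsAlgClosed k]
variable {F₀ : Type*} [Field F₀] [Algebra L F₀]
variable {π : A →+* k} {ι₀ : Bool → F₀ →+* LaurentSeries L}
  {K₀ : IntermediateField k (LaurentSeries k)}
variable [FF.IsFunctionField L F₀] [FF.IsFunctionField k K₀]

namespace Data

variable {X : Degen π ι₀ K₀} {F : Type*} [Field F] [Algebra L F] [FF.IsFunctionField L F]
variable (D : Data X F)

/-- The reduced coefficient of a member of a line. -/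
def coef (b : Bool) (i : ℕ) (h : F₀) : K₀ := X.red b ((D.sc b ^ i)⁻¹ • h)

/-- If a function is integral at a component, so are all its lines. -/
theorem lines_int (b : Bool) {h : Fin D.C.d → F₀} {f : F}
    (hf : f = ∑ i : Fin D.C.d, D.C.line i (h i)) (hint : f ∈ gInt π (D.ι b)) (i : Fin D.C.d) :
    D.C.line i (h i) ∈ gInt π (D.ι b) := by
  classical
  rcases eq_or_ne (h i) 0 with hi | hi
  · rw [D.C.line_eq_zero.mpr hi]; exact zero_mem _
  have hex : ∀ l : Fin D.C.d, ∃ c : L, c ≠ 0 ∧
      (h l ≠ 0 → (D.scal b).Prim (c • D.C.line l (h l))) := fun l => by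
    rcases eq_or_ne (h l) 0 with hl | hl
    · exact ⟨1, one_ne_zero, fun e => absurd hl e⟩
    · obtain ⟨c, hc, hp⟩ := (D.scal b).exists_smul_prim (D.C.line_ne_zero (i := l) hl)
      exact ⟨c, hc, fun _ => hp⟩
  choose c hc hp using hex
  -- divide by the largest scaling: the sum is then primitive, as powers of `H` are independent
  obtain ⟨a, ha, hdiv, j, hj, hja⟩ := exists_div_mem (A := A)
    (Finset.univ.filter fun l => h l ≠ 0) (fun l => (c l)⁻¹)
    ⟨i, by simpa using hi, inv_ne_zero (hc i)⟩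
  have hj' : h j ≠ 0 := (Finset.mem_filter.mp hj).2
  have hl : ∀ l : Fin D.C.d, a⁻¹ • D.C.line l (h l) ∈ gInt π (D.ι b) := fun l => by
    rcases eq_or_ne (h l) 0 with hl | hl
    · rw [D.C.line_eq_zero.mpr hl, smul_zero]; exact zero_mem _
    · have h1 := (D.scal b).int_smul (hdiv l (by simpa using hl)) (hp l hl).1
      rwa [smul_smul, div_eq_mul_inv, mul_right_comm, inv_mul_cancel₀ (hc l), one_mul] at h1
  have hl' : ∀ l : Fin D.C.d, D.C.line l (a⁻¹ • h l) ∈ gInt π (D.ι b) := fun l => by
    rw [Cyclic.line_smul]; exact hl l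
  have hsum : a⁻¹ • f = ∑ l : Fin D.C.d, D.C.line l (a⁻¹ • h l) := by
    rw [hf, Finset.smul_sum]
    simp only [Cyclic.line_smul]
  have hprim : (D.scal b).Prim (a⁻¹ • f) := by
    rw [hsum]
    refine ⟨sum_mem fun l _ => hl' l, fun h0 => ?_⟩
    rw [gRed_sum _ fun l _ => hl' l] at h0
    simp only [fun l => (D.line_red b _ (hl' l)).2] at h0
    have h1 := D.indep b (fun l => X.red b ((D.sc b ^ (l : ℕ))⁻¹ • a⁻¹ • h l)) h0 j
    refine (hp j hj').2 ?_
    rw [show c j • D.C.line j (h j) = D.C.line j (a⁻¹ • h j) by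
      rw [Cyclic.line_smul, ← hja, inv_inv], (D.line_red b _ (hl' j)).2, h1, ZeroMemClass.coe_zero,
      zero_mul]
  have haA : a ∈ A := hprim.mem_of_smul (by rwa [smul_smul, mul_inv_cancel₀ ha, one_smul])
  have h2 := (D.scal b).int_smul haA (hl i)
  rwa [smul_smul, mul_inv_cancel₀ ha, one_smul] at h2

/-- The reduction, line by line. -/
theorem red_eq_sum (b : Bool) {h : Fin D.C.d → F₀} {f : F}
    (hf : f = ∑ i : Fin D.C.d, D.C.line i (h i)) (hint : f ∈ gInt π (D.ι b)) :
    gRed π (D.ι b) f =
      ∑ i : Fin D.C.d, (D.coef b i (h i) : LaurentSeries k) * D.H b ^ (i : ℕ) := by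
  conv_lhs => rw [hf]
  rw [gRed_sum _ fun l _ => D.lines_int b hf hint l]
  exact Finset.sum_congr rfl fun l _ => (D.line_red b _ (D.lines_int b hf hint l)).2

/-- Reductions of functions of the cover lie in the field generated by `H`. -/
theorem gRed_mem_Kb (b : Bool) (f : F) : gRed π (D.ι b) f ∈ D.Kb b := by
  by_cases hint : f ∈ gInt π (D.ι b)
  · obtain ⟨h, hf⟩ := D.C.exists_lines f
    rw [D.red_eq_sum b hf hint]
    exact sum_mem fun l _ => mul_mem (D.le_Kb b (SetLike.coe_mem _)) (pow_mem (D.H_mem b) _)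
  · rw [gRed_of_notMem hint]; exact zero_mem _

/-- An automorphism exchanging the two expansions transfers integrality and reduction between the
two components. -/
theorem int_false_iff {W : F ≃+* F} (hW : ∀ f, D.ι false f = D.ι true (W f)) {f : F} :
    (f ∈ gInt π (D.ι false) ↔ W f ∈ gInt π (D.ι true)) ∧
      gRed π (D.ι false) f = gRed π (D.ι true) (W f) := by
  have hser : ∀ g : F, (D.ι false g ∈ intSeries A ↔ D.ι true (W g) ∈ intSeries A) :=
    fun g => by rw [hW]
  have hred : ∀ g : F, redF π (D.ι false) g = redF π (D.ι true) (W g) := fun g => by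
    by_cases hg : D.ι false g ∈ intSeries A
    · rw [redF_of_mem hg, redF_of_mem ((hser g).mp hg)]
      exact congrArg _ (Subtype.ext (hW g))
    · simp only [redF, dif_neg hg, dif_neg ((not_congr (hser g)).mp hg)]
  have fwd : f ∈ gInt π (D.ι false) → W f ∈ gInt π (D.ι true) ∧
      gRed π (D.ι false) f = gRed π (D.ι true) (W f) := by
    rintro ⟨g, u, hg, hu, hu0, e⟩
    have h2 : IsGQuot π (D.ι true) (W f) (W g) (W u) :=
      ⟨(hser g).mp hg, (hser u).mp hu, by rw [← hred]; exact hu0, by rw [← map_mul, e]⟩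
    exact ⟨h2.mem, by rw [IsGQuot.gRed_eq ⟨hg, hu, hu0, e⟩, h2.gRed_eq, hred, hred]⟩
  have bwd : W f ∈ gInt π (D.ι true) → f ∈ gInt π (D.ι false) := by
    rintro ⟨g, u, hg, hu, hu0, e⟩
    obtain ⟨g, rfl⟩ := W.surjective g
    obtain ⟨u, rfl⟩ := W.surjective u
    rw [← map_mul] at e
    exact IsGQuot.mem ⟨(hser g).mpr hg, (hser u).mpr hu, by rw [hred]; exact hu0, W.injective e⟩
  refine ⟨⟨fun h => (fwd h).1, bwd⟩, ?_⟩
  by_cases h : f ∈ gInt π (D.ι false)
  · exact (fwd h).2
  · rw [gRed_of_notMem h, gRed_of_notMem fun h' => h (bwd h')]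

/-- The two components have the same residue field. -/
theorem Kb_eq (b : Bool) : D.Kb b = D.Kb true := by
  cases b
  swap
  · rfl
  obtain ⟨W, hW⟩ := D.hW
  have hH : D.H false ∈ D.Kb true := by
    rw [H, (D.int_false_iff hW).2]
    exact D.gRed_mem_Kb true _
  have hle : IntermediateField.adjoin K₀ {D.H false} ≤ IntermediateField.adjoin K₀ {D.H true} :=
    IntermediateField.adjoin_le_iff.mpr (Set.singleton_subset_iff.mpr hH)
  exact congrArg (IntermediateField.restrictScalars k) (IntermediateField.eq_of_le_of_finrank_le hle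
    (by rw [IntermediateField.adjoin.finrank (D.isIntegral_H true),
      IntermediateField.adjoin.finrank (D.isIntegral_H false), natDegree_minpoly,
      natDegree_minpoly]))

/-- Reductions at either component lie in the common residue field. -/
theorem gRed_mem (b : Bool) (f : F) : gRed π (D.ι b) f ∈ D.Kb true :=
  D.Kb_eq b ▸ D.gRed_mem_Kb b f

/-- Every element of the residue field is a reduction. -/
theorem exists_gRed (b : Bool) {z : LaurentSeries k} (hz : z ∈ D.Kb true) :
    ∃ f ∈ gInt π (D.ι b), gRed π (D.ι b) f = z := by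
  rw [← D.Kb_eq b] at hz
  obtain ⟨y, rfl⟩ := D.exists_expand b hz
  choose x hx hxy using fun i => exists_red X b (y i)
  have hint : ∀ i : Fin D.C.d, D.C.φ (x i) * (D.sc b • D.C.g) ^ (i : ℕ) ∈ gInt π (D.ι b) :=
    fun i => mul_mem ((D.phi_mem_iff b).mpr (hx i)) (pow_mem (D.prim_sc b).1 _)
  refine ⟨∑ i : Fin D.C.d, D.C.φ (x i) * (D.sc b • D.C.g) ^ (i : ℕ),
    sum_mem fun i _ => hint i, ?_⟩
  rw [gRed_sum _ fun i _ => hint i]
  refine Finset.sum_congr rfl fun i _ => ?_
  rw [gRed_mul ((D.phi_mem_iff b).mpr (hx i)) (pow_mem (D.prim_sc b).1 _), D.red_phi b (hx i),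
    gRed_pow (D.prim_sc b).1, hxy]
  rfl

end Data

end Fermat.BAD.Cover

end
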