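import Fermat.Agent.RED.Model.Generic
import Fermat.Agent.RED.Model.Separate
import Fermat.Agent.RED.UnitArg
import Fermat.Agent.RED.FullField
import Fermat.Agent.HT.Cusp.Series

/-!
# Expansions with scalable reductions, and semicontinuity for several of them

An expansion is `Scalable` if every integral expansion attains its maximum and every function has
a primitive denominator; then every nonzero function has a primitive multiple. For a pair of
scalable expansions, reduction does not lose dimensions (`finrank_le_of_red`).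
-/

set_option autoImplicit false

attribute [local instance 10000] SubalgebraClass.toAlgebra HahnSeries.powerSeriesAlgebra

noncomputable section

namespace Fermat.BAD.Cover

open Fermat.RED.Model Fermat.BAD

variable {L : Type*} [Field L] {A : ValuationSubring L}
variable {k : Type*} [Field k] {F : Type*} [Field F] [Algebra L F]

/-- Every integral expansion can be scaled to a nonzero reduction and every function has a primitive
denominator. -/
structure Scalable (π : A →+* k) (ι : F →+* LaurentSeries L) : Prop where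
  /-- The residue map is onto. -/
  surj : Function.Surjective π
  /-- The expansion fixes constants. -/
  ι_algebraMap : ∀ c, ι (algebraMap L F c) = algebraMap L (LaurentSeries L) c
  /-- A nonzero function with integral expansion has a multiple with integral expansion and nonzero
  reduction. -/
  attained : ∀ f, f ≠ 0 → ι f ∈ intSeries A →
    ∃ a : L, ι (a • f) ∈ intSeries A ∧ redF π ι (a • f) ≠ 0
  /-- Every function has, up to a scalar, an integral denominator with nonzero reduction. -/
  denom : ∀ f, ∃ (u : F) (a : L), a ≠ 0 ∧ ι u ∈ intSeries A ∧ redF π ι u ≠ 0 ∧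
    ι (a • (f * u)) ∈ intSeries A

namespace Scalable

variable {π : A →+* k} {ι : F →+* LaurentSeries L} (hι : Scalable π ι)

/-- Integral at the generic point with nonzero reduction. -/
def Prim (_hι : Scalable π ι) (f : F) : Prop := f ∈ gInt π ι ∧ gRed π ι f ≠ 0

include hι

/-- An integral scalar has integral expansion. -/
theorem series_algebraMap {c : L} (hc : c ∈ A) : ι (algebraMap L F c) ∈ intSeries A := by
  rw [hι.ι_algebraMap]; exact algebraMap_mem_intSeries hc

/-- An integral scalar is integral at the generic point. -/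
theorem int_algebraMap {c : L} (hc : c ∈ A) : algebraMap L F c ∈ gInt π ι :=
  mem_gInt_of_int (hι.series_algebraMap hc)

/-- The reduction of an integral scalar is its residue. -/
theorem red_algebraMap (c : A) :
    gRed π ι (algebraMap L F (c : L)) = algebraMap k (LaurentSeries k) (π c) := by
  rw [gRed_of_int (hι.series_algebraMap c.2), redF_of_mem (hι.series_algebraMap c.2)]
  refine Eq.trans ?_ (redHom_algebraMap π c.2)
  congr 1
  exact Subtype.ext (hι.ι_algebraMap _)

/-- Multiples by integral scalars of integral functions are integral. -/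
theorem int_smul {c : L} {f : F} (hc : c ∈ A) (hf : f ∈ gInt π ι) : c • f ∈ gInt π ι := by
  rw [Algebra.smul_def]; exact mul_mem (hι.int_algebraMap hc) hf

/-- Reduction is semilinear over the residue map. -/
theorem red_smul (c : A) {f : F} (hf : f ∈ gInt π ι) :
    gRed π ι ((c : L) • f) = algebraMap k (LaurentSeries k) (π c) * gRed π ι f := by
  rw [Algebra.smul_def, gRed_mul (hι.int_algebraMap c.2) hf, hι.red_algebraMap]

/-- Every nonzero function has a primitive scalar multiple. -/
theorem exists_smul_prim {f : F} (hf : f ≠ 0) : ∃ c : L, c ≠ 0 ∧ hι.Prim (c • f) := by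
  -- scale numerator and denominator separately
  obtain ⟨u, a, ha, hu, hu0, hfu⟩ := hι.denom f
  have hu_ne : u ≠ 0 := fun h => hu0 (by rw [h, redF_zero])
  obtain ⟨a', ha', hr⟩ := hι.attained (a • (f * u)) (smul_ne_zero ha (mul_ne_zero hf hu_ne)) hfu
  have hq : IsGQuot π ι ((a' * a) • f) (a' • a • (f * u)) u :=
    ⟨ha', hu, hu0, by rw [smul_mul_assoc, mul_smul]⟩
  have hne : gRed π ι ((a' * a) • f) ≠ 0 := by rw [hq.gRed_eq]; exact div_ne_zero hr hu0
  exact ⟨a' * a, fun h => hne (by rw [h, zero_smul, gRed_zero]), hq.mem, hne⟩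

omit hι in
/-- A product of primitive functions is primitive. -/
theorem Prim.mul {hι : Scalable π ι} {f g : F} (hf : hι.Prim f) (hg : hι.Prim g) :
    hι.Prim (f * g) :=
  ⟨mul_mem hf.1 hg.1, by rw [gRed_mul hf.1 hg.1]; exact mul_ne_zero hf.2 hg.2⟩

/-- `1` is primitive. -/
theorem prim_one : hι.Prim 1 := ⟨one_mem _, by rw [gRed_one]; exact one_ne_zero⟩

omit hι in
/-- A power of a primitive function is primitive. -/
theorem Prim.pow {hι : Scalable π ι} {f : F} (hf : hι.Prim f) (n : ℕ) : hι.Prim (f ^ n) := by
  induction n with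
  | zero => simpa using hι.prim_one
  | succ n ih => rw [pow_succ]; exact ih.mul hf

omit hι in
/-- A primitive function is nonzero. -/
theorem Prim.ne_zero {hι : Scalable π ι} {f : F} (hf : hι.Prim f) : f ≠ 0 :=
  fun h => hf.2 (by rw [h, gRed_zero])

omit hι in
/-- A scalar keeping a primitive element integral is integral. -/
theorem Prim.mem_of_smul {hι : Scalable π ι} {f : F} (hf : hι.Prim f) {c : L}
    (hc : c • f ∈ gInt π ι) : c ∈ A := by
  by_contra h
  have hc0 : c ≠ 0 := fun h0 => h (h0 ▸ zero_mem A)
  have hinv : c⁻¹ ∈ A := (A.mem_or_inv_mem c).resolve_left h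
  have h1 : π ⟨c⁻¹, hinv⟩ = 0 := map_eq_zero_of_inv_notMem hι.surj (by simpa using h)
  refine hf.2 ?_
  rw [show f = c⁻¹ • c • f by rw [smul_smul, inv_mul_cancel₀ hc0, one_smul],
    hι.red_smul ⟨c⁻¹, hinv⟩ hc, h1, map_zero, zero_mul]

/-- The inverse of a primitive function is primitive, with the inverse reduction. -/
theorem prim_inv {f : F} (hf : hι.Prim f) :
    hι.Prim f⁻¹ ∧ gRed π ι f⁻¹ = (gRed π ι f)⁻¹ := by
  obtain ⟨c, hc, hp⟩ := hι.exists_smul_prim (inv_ne_zero hf.ne_zero)
  have h1 := hf.mul hp
  rw [mul_smul_comm, mul_inv_cancel₀ hf.ne_zero] at h1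
  have hcA : c ∈ A := hι.prim_one.mem_of_smul h1.1
  have hu : π ⟨c, hcA⟩ ≠ 0 := fun h0 => h1.2 (by
    rw [show c • (1 : F) = ((⟨c, hcA⟩ : A) : L) • (1 : F) from rfl,
      hι.red_smul _ hι.prim_one.1, h0, map_zero, zero_mul])
  have hint : f⁻¹ ∈ gInt π ι := by
    have := hι.int_smul (inv_mem_of_map_ne_zero hι.surj hu) hp.1
    rwa [smul_smul, inv_mul_cancel₀ hc, one_smul] at this
  have hmul : gRed π ι f⁻¹ * gRed π ι f = 1 := by
    rw [← gRed_mul hint hf.1, inv_mul_cancel₀ hf.ne_zero, gRed_one]
  exact ⟨⟨hint, left_ne_zero_of_mul_eq_one hmul⟩, eq_inv_of_mul_eq_one_left hmul⟩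

/-- The integral elements are integrally closed. -/
theorem mem_of_pow_mem {f : F} {n : ℕ} (hn : n ≠ 0) (h : f ^ n ∈ gInt π ι) : f ∈ gInt π ι := by
  rcases eq_or_ne f 0 with rfl | hf
  · exact zero_mem _
  obtain ⟨c, hc, hp⟩ := hι.exists_smul_prim hf
  have h2 : (c ^ n)⁻¹ • ((c • f) ^ n) ∈ gInt π ι := by
    rwa [smul_pow, smul_smul, inv_mul_cancel₀ (pow_ne_zero _ hc), one_smul]
  have h3 : c⁻¹ ∈ A := by
    have h4 := (hp.pow n).mem_of_smul h2
    rcases A.mem_or_inv_mem c⁻¹ with h5 | h5
    · exact h5
    · rw [inv_inv] at h5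
      obtain ⟨m, rfl⟩ := Nat.exists_eq_succ_of_ne_zero hn
      have h6 := mul_mem h4 (pow_mem h5 m)
      rwa [pow_succ, mul_inv, mul_right_comm, inv_mul_cancel₀ (pow_ne_zero _ hc), one_mul] at h6
  rw [show f = c⁻¹ • (c • f) by rw [smul_smul, inv_mul_cancel₀ hc, one_smul]]
  exact hι.int_smul h3 hp.1

/-- A bounded expansion of a function defined at the generic point is integral. -/
theorem series_int_of_bdd {f : F} (hf : f ∈ gInt π ι) {a : L} (ha : a ≠ 0)
    (h : ι (a • f) ∈ intSeries A) : ι f ∈ intSeries A := by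
  rcases eq_or_ne f 0 with rfl | hf0
  · rw [map_zero]; exact zero_mem _
  obtain ⟨a', h', hr⟩ := hι.attained (a • f) (smul_ne_zero ha hf0) h
  have hc : a' * a ≠ 0 := fun h0 => hr (by rw [smul_smul, h0, zero_smul, redF_zero])
  have hp : hι.Prim ((a' * a) • f) := by
    rw [mul_smul]
    exact ⟨mem_gInt_of_int h', by rwa [gRed_of_int h']⟩
  have hinv : (a' * a)⁻¹ ∈ A := hp.mem_of_smul (by rwa [smul_smul, inv_mul_cancel₀ hc, one_smul])
  rw [show f = (a' * a)⁻¹ • (a' • a • f) by
    rw [smul_smul a', smul_smul, inv_mul_cancel₀ hc, one_smul], Algebra.smul_def, map_mul]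
  exact mul_mem (hι.series_algebraMap hinv) h'

/-- A function integral at the generic point has an integral expansion as soon as a positive power
of it does (`A` archimedean). -/
theorem series_int_of_pow (hA : Fermat.HT.Cusp.Arch A) {f : F} (hf : f ∈ gInt π ι) {n : ℕ}
    (hn : n ≠ 0) (h : ι (f ^ n) ∈ intSeries A) : ι f ∈ intSeries A := by
  classical
  rcases eq_or_ne f 0 with rfl | hf0
  · rw [map_zero]; exact zero_mem _
  -- a common denominator for the finitely many `f ^ r`, `r < n`, serves all powers
  have hd : ∀ r : ℕ, ∃ v : LaurentSeries L, v ≠ 0 ∧ v ∈ intSeries A ∧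
      v * ι f ^ r ∈ intSeries A := fun r => by
    obtain ⟨u, a, ha, hu, hu0, hfu⟩ := hι.denom (f ^ r)
    rcases A.mem_or_inv_mem a with hm | hm
    · refine ⟨ι (algebraMap L F a * u), (map_ne_zero ι).mpr (mul_ne_zero ((map_ne_zero _).mpr ha)
        fun e => hu0 (by rw [e, redF_zero])), ?_, ?_⟩
      · rw [map_mul]; exact mul_mem (hι.series_algebraMap hm) hu
      · rw [← map_pow, ← map_mul]
        rwa [Algebra.smul_def, mul_comm (f ^ r), ← mul_assoc] at hfu
    · refine ⟨ι u, (map_ne_zero ι).mpr fun e => hu0 (by rw [e, redF_zero]), hu, ?_⟩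
      have h1 := mul_mem (hι.series_algebraMap hm) hfu
      rw [← map_mul, Algebra.smul_def, ← mul_assoc, ← map_mul, inv_mul_cancel₀ ha, map_one,
        one_mul, map_mul, map_pow, mul_comm] at h1
      exact h1
  choose v hv0 hvA hv using hd
  refine Fermat.HT.Cusp.mem_intSeries_of_almostIntegral hA (v := ∏ r ∈ Finset.range n, v r)
    (Finset.prod_ne_zero_iff.mpr fun r _ => hv0 r) fun m => ?_
  have hm : m % n ∈ Finset.range n := Finset.mem_range.mpr (Nat.mod_lt m (Nat.pos_of_ne_zero hn))
  rw [← Finset.mul_prod_erase _ _ hm, show ι f ^ m = ι (f ^ n) ^ (m / n) * ι f ^ (m % n) by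
    rw [map_pow, ← pow_mul, ← pow_add, Nat.div_add_mod]]
  rw [show v (m % n) * (∏ r ∈ (Finset.range n).erase (m % n), v r) *
      (ι (f ^ n) ^ (m / n) * ι f ^ (m % n)) =
      (v (m % n) * ι f ^ (m % n)) * ((∏ r ∈ (Finset.range n).erase (m % n), v r) *
        ι (f ^ n) ^ (m / n)) by ring]
  exact mul_mem (hv _) (mul_mem (prod_mem fun r _ => hvA r) (pow_mem h _))

end Scalable

section Several

variable {π : A →+* k} {ι : Bool → F →+* LaurentSeries L} (hι : ∀ b, Scalable π (ι b))
include hι

/-- A scalar making `f` integral everywhere and nonzero at some component. -/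
theorem exists_joint {f : F} (hf : f ≠ 0) :
    ∃ c : L, c ≠ 0 ∧ (∀ b, c • f ∈ gInt π (ι b)) ∧ ∃ b, gRed π (ι b) (c • f) ≠ 0 := by
  obtain ⟨a, ha, hpa⟩ := (hι true).exists_smul_prim hf
  obtain ⟨c, hc, hpc⟩ := (hι false).exists_smul_prim hf
  rcases A.mem_or_inv_mem (a / c) with h | h
  · refine ⟨a, ha, fun b => ?_, true, hpa.2⟩
    cases b
    · have := (hι false).int_smul h hpc.1
      rwa [smul_smul, div_mul_cancel₀ _ hc] at this
    · exact hpa.1
  · refine ⟨c, hc, fun b => ?_, false, hpc.2⟩
    cases b
    · exact hpc.1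
    · have := (hι true).int_smul h hpa.1
      rwa [inv_div, smul_smul, div_mul_cancel₀ _ ha] at this

/-- Reduction does not lose dimensions: if the pairs of reductions of the members of `W` integral at
both components lie in `V`, then `dim W ≤ dim V`. -/
theorem finrank_le_of_red (W : Submodule L F) [FiniteDimensional L W]
    (V : Submodule k (Bool → LaurentSeries k)) [FiniteDimensional k V]
    (hV : ∀ g ∈ W, (∀ b, g ∈ gInt π (ι b)) → (fun b => gRed π (ι b) g) ∈ V) :
    Module.finrank L W ≤ Module.finrank k V := by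
  classical
  have : Module.Free L W := Module.Free.of_divisionRing L W
  let e := Module.finBasis L W
  choose v c hc hv hv0 hcv using fun (b : Bool) i => (hι b).denom (e i : F)
  -- a common primitive denominator `U b` of a basis bounds all of `W` at the component `b`
  set U : Bool → F := fun b => ∏ i, v b i with hU
  have hUi : ∀ b, ι b (U b) ∈ intSeries A := fun b => by
    rw [hU, map_prod]; exact prod_mem fun i _ => hv b i
  have hU0 : ∀ b, gRed π (ι b) (U b) ≠ 0 := fun b h0 => by
    rw [gRed_of_int (hUi b), hU, redF_prod _ fun i _ => hv b i] at h0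
    exact Finset.prod_ne_zero_iff.mpr (fun i _ => hv0 b i) h0
  have hbd : ∀ (b : Bool) (w : W), ∃ a : L, a ≠ 0 ∧ ι b (a • (U b * (w : F))) ∈ intSeries A :=
    fun b => exists_smul_prod_mul_mem (fun _ => (hι b).series_algebraMap) e (hc b) (hv b) (hcv b)
  -- finitely many reduced coefficients separate `V`; the same ones then separate `W`
  let cn : Bool × ℤ → (Bool → LaurentSeries k) →ₗ[k] k := fun i =>
    { toFun := fun P => (P i.1 * gRed π (ι i.1) (U i.1)).coeff i.2
      map_add' := fun P P' => by rw [Pi.add_apply, add_mul, HahnSeries.coeff_add]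
      map_smul' := fun a P => by
        rw [Pi.smul_apply, Fermat.RED.laurent_smul_def, mul_assoc,
          Fermat.RED.coeff_algebraMap_mul, RingHom.id_apply, smul_eq_mul] }
  obtain ⟨S, hS, hsep⟩ := exists_separating_finset cn (fun P hP => funext fun b =>
    (mul_eq_zero.mp (HahnSeries.ext (funext fun n => hP (b, n)) :
      P b * gRed π (ι b) (U b) = 0)).resolve_right (hU0 b)) V
  let Φ : W →ₗ[L] (S → L) :=
    { toFun := fun w i => (ι i.1.1 (U i.1.1 * (w : F))).coeff i.1.2
      map_add' := fun w w' => by ext i; simp [mul_add]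
      map_smul' := fun a w => by
        ext i
        simp only [Submodule.coe_smul, Algebra.smul_def, map_mul, (hι i.1.1).ι_algebraMap,
          Pi.smul_apply, RingHom.id_apply, mul_left_comm (ι i.1.1 (U i.1.1))]
        exact Fermat.RED.coeff_algebraMap_mul a _ _ }
  -- a function killed by them reduces to zero after scaling
  have hΦ : Function.Injective Φ := by
    rw [injective_iff_map_eq_zero]
    intro w hw
    by_contra hne
    obtain ⟨c', hc', hO, b, hb⟩ := exists_joint hι (f := (w : F)) fun h => hne (Subtype.ext h)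
    refine hb (congrFun (hsep _ (hV _ (W.smul_mem c' w.2) hO) fun i hi => ?_) b)
    change (gRed π (ι i.1) (c' • (w : F)) * gRed π (ι i.1) (U i.1)).coeff i.2 = 0
    have hmem := mul_mem (mem_gInt_of_int (π := π) (hUi i.1)) (hO i.1)
    obtain ⟨a, ha, hab⟩ := hbd i.1 ⟨_, W.smul_mem c' w.2⟩
    have hint := (hι i.1).series_int_of_bdd hmem ha hab
    rw [mul_comm, ← gRed_mul (mem_gInt_of_int (hUi i.1)) (hO i.1), gRed_of_int hint,
      redF_of_mem hint, redHom_coeff]
    refine Eq.trans (congrArg π (Subtype.ext ?_)) (map_zero π)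
    change (ι i.1 (U i.1 * c' • (w : F))).coeff i.2 = 0
    rw [mul_smul_comm, Algebra.smul_def, map_mul, (hι i.1).ι_algebraMap,
      Fermat.RED.coeff_algebraMap_mul]
    have := congrFun hw ⟨i, hi⟩
    change (ι i.1 (U i.1 * (w : F))).coeff i.2 = 0 at this
    rw [this, mul_zero]
  calc Module.finrank L W ≤ Module.finrank L (S → L) :=
        LinearMap.finrank_le_finrank_of_injective hΦ
    _ = S.card := by rw [Module.finrank_fintype_fun_eq_card, Fintype.card_coe]
    _ ≤ _ := hS

end Several

end Fermat.BAD.Cover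

end
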