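import Fermat.Agent.BAD.Cover.Lines
import Fermat.Agent.BAD.Cover.Expansion
import Fermat.Agent.BAD.Engine.Theorems

/-!
# A cyclic unramified cover of a curve with two glued reductions

The input for the construction of the glued reductions of the cover: the two expansions extend,
and on every nontrivial line there is a transformation fixing the first reduction and multiplying
the second one by a constant different from one (inertia).

The construction, in `Fermat.BAD.Cover`:
* `Lines`, `Expansion`: the two ingredients, cyclic Kummer extensions (a function is a sum of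
  *lines* `h g ^ i`) and expansions with scalable reductions (reduction loses no dimensions).
* `Data` (this file): the reduced generator `H` on each component and `r = H ^ d`.
* `Ramify`: the order of `r` is prime to `d` at the glued points and divisible by `d` elsewhere.
* `Residue`, `Surj`, `Components`: the residue field of the cover is the degree `d` extension of
  that of the base generated by `H`, the same for both components; reduction works line by line.
* `Points`, `Genus`: one point over each glued point, bounded expansions, and the genus count.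
* `Degen`: the cover is itself a curve with two glued reductions.
* `Sym`: symmetries of the base lift to symmetries of the cover.
-/

set_option autoImplicit false

attribute [local instance 10000] SubalgebraClass.toAlgebra HahnSeries.powerSeriesAlgebra

noncomputable section

open AlgebraicCurve

namespace Fermat.BAD.Cover

open Fermat.FF Fermat.JAC Fermat.RED.Model Fermat.BAD

variable {L : Type*} [Field L] {A : ValuationSubring L}
variable {k : Type*} [Field k] [IsAlgClosed L] [IsAlgClosed k]
variable {F₀ : Type*} [Field F₀] [Algebra L F₀]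
variable {π : A →+* k} {ι₀ : Bool → F₀ →+* LaurentSeries L}
  {K₀ : IntermediateField k (LaurentSeries k)}
variable [FF.IsFunctionField L F₀] [FF.IsFunctionField k K₀]

/-- A cyclic cover `F/F₀` of degree prime to the residue characteristic, unramified everywhere, of a
curve `X` with two glued reductions: extensions of both expansions of `X`, exchanged by an
automorphism, and, on every nontrivial line, an inertia-like transformation which keeps the
first reduction and multiplies the second one by a constant different from one. -/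
structure Data (X : Degen π ι₀ K₀) (F : Type*) [Field F] [Algebra L F]
    [FF.IsFunctionField L F] where
  /-- The cyclic Kummer structure of `F/F₀`. -/
  C : Cyclic L F₀ F
  /-- The degree is prime to the residue characteristic. -/
  d_ne_res : (C.d : k) ≠ 0
  /-- The cover is unramified. -/
  unram : ∀ w : Place L F, w.ramificationIndexAlong C.φ = 1
  /-- The expansion of the cover at each component. -/
  ι : Bool → F →+* LaurentSeries L
  /-- Both expansions are scalable. -/
  scal : ∀ b, Scalable π (ι b)
  /-- The expansions extend those of the base. -/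
  comp : ∀ b x, ι b (C.φ x) = ι₀ b x
  /-- An automorphism exchanges the two expansions. -/
  hW : ∃ W : F ≃+* F, ∀ f, ι false f = ι true (W f)
  /-- The two components of the base meet. -/
  S_ne : X.S.Nonempty
  /-- On each nontrivial line: from a bounded integral member, another one with the same reduction
  at the first component and `c` times the reduction at the second, `c ≠ 1`. -/
  twist : ∀ i : ℕ, 0 < i → i < C.d → ∃ c : k, c ≠ 1 ∧ ∀ (m : ℕ) (h : F₀),
    (∀ b, C.line i h ∈ gInt π (ι b)) →
    C.line i h ∈ riemannRochSpace (pullDiv C.φ (m • X.A0)) →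
    ∃ h' : F₀, (∀ b, C.line i h' ∈ gInt π (ι b)) ∧
      C.line i h' ∈ riemannRochSpace (pullDiv C.φ (m • X.A0)) ∧
      gRed π (ι true) (C.line i h') = gRed π (ι true) (C.line i h) ∧
      gRed π (ι false) (C.line i h') =
        algebraMap k (LaurentSeries k) c * gRed π (ι false) (C.line i h)

omit [IsAlgClosed L] in
/-- The expansions of the base are scalable. -/
theorem scalable_base (X : Degen π ι₀ K₀) (b : Bool) : Scalable π (ι₀ b) :=
  ⟨X.surj, X.ι_algebraMap b, X.attained b, X.denom b⟩

omit [IsAlgClosed L] in
/-- The valuation ring under a degeneration is archimedean. -/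
theorem arch_base (X : Degen π ι₀ K₀) : Fermat.HT.Cusp.Arch A := by
  intro a ha u hu
  by_contra hcon
  push Not at hcon
  have hau : a⁻¹ ∈ A := (A.mem_or_inv_mem a).resolve_left ha
  have huA : u ∈ A := by simpa using hcon 0
  have ha0 : a ≠ 0 := fun h => ha (h ▸ zero_mem A)
  have hπ : π ⟨a⁻¹, hau⟩ = 0 := map_eq_zero_of_inv_notMem X.surj (by simpa using ha)
  obtain ⟨N, t, ht⟩ := X.arch ⟨a⁻¹, hau⟩ hπ ⟨u, huA⟩ fun h => hu (congrArg Subtype.val h)
  have h1 : (a⁻¹) ^ N = u * (t : L) := by
    have := congrArg Subtype.val ht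
    simpa using this
  refine ha ?_
  have h2 := mul_mem t.2 (hcon (N + 1))
  rwa [← mul_assoc, mul_comm (t : L), ← h1, pow_succ, ← mul_assoc, inv_pow,
    inv_mul_cancel₀ (pow_ne_zero _ ha0), one_mul] at h2

namespace Data

variable {X : Degen π ι₀ K₀} {F : Type*} [Field F] [Algebra L F] [FF.IsFunctionField L F]
variable (D : Data X F)

/-- An integral function of the base stays integral on the cover, with the same reduction. -/
theorem phi_int_red (b : Bool) {y : F₀} (hy : y ∈ gInt π (ι₀ b)) :
    D.C.φ y ∈ gInt π (D.ι b) ∧ gRed π (D.ι b) (D.C.φ y) = gRed π (ι₀ b) y := by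
  obtain ⟨g, u, hg, hu, hu0, e⟩ := hy
  have hred : ∀ {z : F₀}, ι₀ b z ∈ intSeries A →
      redF π (D.ι b) (D.C.φ z) = redF π (ι₀ b) z := fun {z} hz => by
    have hz' : D.ι b (D.C.φ z) ∈ intSeries A := by rw [D.comp]; exact hz
    rw [redF_of_mem hz', redF_of_mem hz]
    exact congrArg _ (Subtype.ext (D.comp b z))
  have h2 : IsGQuot π (D.ι b) (D.C.φ y) (D.C.φ g) (D.C.φ u) :=
    ⟨by rw [D.comp]; exact hg, by rw [D.comp]; exact hu, by rw [hred hu]; exact hu0,
      by rw [← map_mul, e]⟩
  exact ⟨h2.mem, by rw [h2.gRed_eq, IsGQuot.gRed_eq ⟨hg, hu, hu0, e⟩, hred hg, hred hu]⟩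

/-- A function of the base is integral at a component iff its image in the cover is. -/
theorem phi_mem_iff (b : Bool) {x : F₀} : D.C.φ x ∈ gInt π (D.ι b) ↔ x ∈ gInt π (ι₀ b) := by
  refine ⟨fun h => ?_, fun h => (D.phi_int_red b h).1⟩
  rcases eq_or_ne x 0 with rfl | hx
  · exact zero_mem _
  obtain ⟨c, hc, hp⟩ := (scalable_base X b).exists_smul_prim hx
  obtain ⟨h1, h2⟩ := D.phi_int_red b hp.1
  have hp' : (D.scal b).Prim (c • D.C.φ x) := by
    rw [← map_smul]; exact ⟨h1, by rw [h2]; exact hp.2⟩
  have hinv := hp'.mem_of_smul (c := c⁻¹) (by rwa [smul_smul, inv_mul_cancel₀ hc, one_smul])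
  rw [show x = c⁻¹ • (c • x) by rw [smul_smul, inv_mul_cancel₀ hc, one_smul]]
  exact (scalable_base X b).int_smul hinv hp.1

/-- The reduction of a function of the base is the same computed on the cover. -/
theorem red_phi (b : Bool) {x : F₀} (h : x ∈ gInt π (ι₀ b)) :
    gRed π (D.ι b) (D.C.φ x) = (X.red b x : LaurentSeries k) := by
  rw [X.coe_red]
  exact (D.phi_int_red b h).2

/-- A scalar making the generator primitive. -/
def sc (b : Bool) : L := ((D.scal b).exists_smul_prim D.C.g_ne).choose

/-- The scaled generator `sc • g` is primitive. -/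
theorem prim_sc (b : Bool) : (D.scal b).Prim (D.sc b • D.C.g) :=
  ((D.scal b).exists_smul_prim D.C.g_ne).choose_spec.2

/-- The reduction of the scaled generator. -/
def H (b : Bool) : LaurentSeries k := gRed π (D.ι b) (D.sc b • D.C.g)

/-- The reduction of the scaled generator is nonzero. -/
theorem H_ne (b : Bool) : D.H b ≠ 0 := (D.prim_sc b).2

/-- The scaled Kummer element. -/
def es (b : Bool) : F₀ := D.sc b ^ D.C.d • D.C.e

/-- The scaled Kummer element is the `d`-th power of the scaled generator. -/
theorem phi_es (b : Bool) : D.C.φ (D.es b) = (D.sc b • D.C.g) ^ D.C.d := by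
  rw [es, map_smul, smul_pow, D.C.g_pow]

/-- The scaled Kummer element is integral at the component. -/
theorem es_int (b : Bool) : D.es b ∈ gInt π (ι₀ b) :=
  (D.phi_mem_iff b).mp (by rw [phi_es]; exact pow_mem (D.prim_sc b).1 _)

/-- The reduction of the scaled Kummer element. -/
def r (b : Bool) : K₀ := X.red b (D.es b)

/-- `r = H ^ d` in Laurent series. -/
theorem coe_r (b : Bool) : (D.r b : LaurentSeries k) = D.H b ^ D.C.d := by
  rw [r, ← D.red_phi b (D.es_int b), phi_es, gRed_pow (D.prim_sc b).1]
  rfl

/-- The reduced Kummer element is nonzero. -/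
theorem r_ne (b : Bool) : D.r b ≠ 0 := fun h => pow_ne_zero D.C.d (D.H_ne b) (by
  rw [← D.coe_r, h]; rfl)

/-- An integral member `h g ^ i` of a line has integral scaled coefficient `h / sc ^ i`, and reduces
to the reduction of that coefficient times `H ^ i`. -/
theorem line_red (b : Bool) (i : ℕ) {h : F₀} (hf : D.C.line i h ∈ gInt π (D.ι b)) :
    (D.sc b ^ i)⁻¹ • h ∈ gInt π (ι₀ b) ∧ gRed π (D.ι b) (D.C.line i h) =
      (X.red b ((D.sc b ^ i)⁻¹ • h) : LaurentSeries k) * D.H b ^ i := by
  have hp := (D.prim_sc b).pow i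
  obtain ⟨h1, h2⟩ := (D.scal b).prim_inv hp
  have e : D.C.φ ((D.sc b ^ i)⁻¹ • h) = D.C.line i h * ((D.sc b • D.C.g) ^ i)⁻¹ := by
    rw [map_smul, Cyclic.line_def, smul_pow, Algebra.smul_def, Algebra.smul_def, mul_inv,
      map_inv₀]
    field_simp [D.C.g_ne]
  have hint : (D.sc b ^ i)⁻¹ • h ∈ gInt π (ι₀ b) :=
    (D.phi_mem_iff b).mp (by rw [e]; exact mul_mem hf h1.1)
  refine ⟨hint, ?_⟩
  rw [← D.red_phi b hint, e, gRed_mul hf h1.1, h2, gRed_pow (D.prim_sc b).1, mul_assoc]
  change _ = _ * ((D.H b ^ i)⁻¹ * D.H b ^ i)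
  rw [inv_mul_cancel₀ (pow_ne_zero _ (D.H_ne b)), mul_one]

/-- The divisor of the Kummer element is divisible by the degree. -/
theorem dvd_ord_e (v : Place L F₀) : (D.C.d : ℤ) ∣ v.ord D.C.e := by
  obtain ⟨w, rfl⟩ := below_surjective D.C.φ v
  refine ⟨w.ord D.C.g, ?_⟩
  have h := ord_below D.C.φ w D.C.e
  rw [← D.C.g_pow, FF.ord_pow, D.unram w, Nat.cast_one, one_mul] at h
  exact h.symm

/-- The divisor `E` with `d E = div e`. -/
def E : Divisor L F₀ := (divOf L D.C.e).mapRange (· / (D.C.d : ℤ)) (Int.zero_ediv _)

/-- The defining property of `E`, place by place. -/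
theorem d_mul_E (v : Place L F₀) : (D.C.d : ℤ) * D.E v = v.ord D.C.e := by
  rw [E, Finsupp.mapRange_apply, divOf_apply, Int.mul_ediv_cancel' (D.dvd_ord_e v)]

/-- `E` has degree zero. -/
theorem degree_E : Divisor.degree D.E = 0 := by
  have h : D.C.d • D.E = divOf L D.C.e := Finsupp.ext fun v => by
    rw [divOf_apply, ← D.d_mul_E, Finsupp.smul_apply, nsmul_eq_mul]
  have h2 := congrArg Divisor.degree h
  rw [map_nsmul, degree_divOf, nsmul_eq_mul] at h2
  exact (mul_eq_zero.mp h2).resolve_left (by exact_mod_cast D.C.d_ne_zero)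

/-- The `i`-th line of `h` lies in the Riemann–Roch space pulled back from `A'` iff `h` lies in
that of `A' + i E`. -/
theorem line_mem_pull_iff {A' : Divisor L F₀} {i : ℕ} {h : F₀} :
    D.C.line i h ∈ riemannRochSpace (pullDiv D.C.φ A') ↔
      h ∈ riemannRochSpace (A' + (i : ℤ) • D.E) := by
  rcases eq_or_ne h 0 with rfl | hh
  · simp [D.C.line_eq_zero.mpr rfl]
  rw [D.C.line_mem_rr_iff hh, mem_riemannRochSpace]
  refine forall_congr' fun v => ?_
  rw [ordGE_iff_of_ne hh, Finsupp.add_apply, Finsupp.smul_apply, smul_eq_mul, ← D.d_mul_E v]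
  have hd : (0 : ℤ) < D.C.d := by exact_mod_cast D.C.d_pos
  constructor
  · intro h1
    refine le_of_mul_le_mul_left ?_ hd
    linarith
  · intro h1
    have := mul_le_mul_of_nonneg_left h1 hd.le
    linarith

/-- For a bounded member `h g ^ i` of a line, integral at both components, the `d`-th power comes
from the base function `h ^ d e ^ i`, which is bounded, has integral expansions and reduces to
the `d`-th power of the reduction. -/
theorem pow_data {i m : ℕ} {h : F₀} (hi : ∀ b, D.C.line i h ∈ gInt π (D.ι b))
    (hm : D.C.line i h ∈ riemannRochSpace (pullDiv D.C.φ (m • X.A0))) :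
    h ^ D.C.d * D.C.e ^ i ∈ riemannRochSpace ((D.C.d * m) • X.A0) ∧
      ∀ b, ι₀ b (h ^ D.C.d * D.C.e ^ i) ∈ intSeries A ∧
        (X.red b (h ^ D.C.d * D.C.e ^ i) : LaurentSeries k) =
          gRed π (D.ι b) (D.C.line i h) ^ D.C.d := by
  have hrr : h ^ D.C.d * D.C.e ^ i ∈ riemannRochSpace ((D.C.d * m) • X.A0) := by
    rcases eq_or_ne h 0 with rfl | hh
    · rw [zero_pow D.C.d_ne_zero, zero_mul]; exact zero_mem _
    rw [mem_riemannRochSpace]
    intro v
    rw [ordGE_iff_of_ne (mul_ne_zero (pow_ne_zero _ hh) (pow_ne_zero _ D.C.e_ne)),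
      Place.ord_mul _ (pow_ne_zero _ hh) (pow_ne_zero _ D.C.e_ne), FF.ord_pow, FF.ord_pow]
    have := (D.C.line_mem_rr_iff hh).mp hm v
    simp only [Finsupp.smul_apply, nsmul_eq_mul, Nat.cast_mul] at this ⊢
    linarith
  refine ⟨hrr, fun b => ?_⟩
  have hint : h ^ D.C.d * D.C.e ^ i ∈ gInt π (ι₀ b) :=
    (D.phi_mem_iff b).mp (by rw [← D.C.line_pow]; exact pow_mem (hi b) _)
  refine ⟨X.series_int_of_mem hint hrr, ?_⟩
  rw [← D.red_phi b hint, ← D.C.line_pow, gRed_pow (hi b)]

end Data

end Fermat.BAD.Cover

end
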