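import Fermat.Agent.BAD.Cover.Genus

/-!
# The glued reductions of the cover

`Data.degen`: pullbacks of the divisors, the points above the glued points, and the gluing
condition, which only sees the zeroth line since the others vanish there.
-/

set_option autoImplicit false

attribute [local instance 10000] SubalgebraClass.toAlgebra HahnSeries.powerSeriesAlgebra

noncomputable section

open AlgebraicCurve

namespace Fermat.BAD.Cover

open Fermat.FF Fermat.JAC Fermat.RED.Model Fermat.BAD

variable {L : Type*} [Field L] {A : ValuationSubring L}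
variable {k : Type*} [Field k] [IsAlgClosed L] [IsAlgClosed k]
variable {F₀ : Type*} [Field F₀] [Algebra L F₀]
variable {π : A →+* k} {ι₀ : Bool → F₀ →+* LaurentSeries L}
  {K₀ : IntermediateField k (LaurentSeries k)}
variable [FF.IsFunctionField L F₀] [FF.IsFunctionField k K₀]

namespace Data

variable {X : Degen π ι₀ K₀} {F : Type*} [Field F] [Algebra L F] [FF.IsFunctionField L F]
variable (D : Data X F)

/-- The reduction, as an element of the residue field. -/
def redT (b : Bool) (f : F) : D.Kb true := ⟨gRed π (D.ι b) f, D.gRed_mem b f⟩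

/-- The reduction in the residue field, line by line. -/
theorem redT_eq_sum (b : Bool) {h : Fin D.C.d → F₀} {f : F}
    (hf : f = ∑ i : Fin D.C.d, D.C.line i (h i)) (hint : f ∈ gInt π (D.ι b)) :
    D.redT b f = ∑ i : Fin D.C.d, D.φT (D.coef b i (h i)) * D.HT b ^ (i : ℕ) :=
  Subtype.ext (by
    rw [AddSubmonoidClass.coe_finsetSum]
    exact D.red_eq_sum b hf hint)

/-- Reductions of bounded sections of the cover: the poles. -/
theorem redT_mem (b : Bool) {m : ℕ} {f : F} (hi : ∀ c, f ∈ gInt π (D.ι c))
    (hm : f ∈ riemannRochSpace (pullDiv D.C.φ (m • X.A0))) :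
    D.redT b f ∈ riemannRochSpace (m • pullDiv D.φT X.B) := by
  obtain ⟨h, hf⟩ := D.C.exists_lines f
  rw [D.redT_eq_sum b hf (hi b)]
  exact sum_mem fun i _ => (D.red_line_data b (fun c => D.lines_int c hf (hi c) i)
    (D.lines_mem_rr hf hm i)).1

/-- At a point above a glued point, the reduction of a bounded function has the value of its zeroth
line. -/
theorem evalAt_redT (b : Bool) {m : ℕ} {f : F} {h : Fin D.C.d → F₀}
    (hf : f = ∑ i : Fin D.C.d, D.C.line i (h i)) (hi : ∀ c, f ∈ gInt π (D.ι c))
    (hm : f ∈ riemannRochSpace (pullDiv D.C.φ (m • X.A0)))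
    {w : Place k (D.Kb true)} (hw : below D.φT w ∈ glued X b) :
    evalAt w (D.redT b f) = evalAt (below D.φT w) (X.red b (h ⟨0, D.C.d_pos⟩)) := by
  classical
  have hz := fun i => D.red_line_data b (fun c => D.lines_int c hf (hi c) i)
    (D.lines_mem_rr hf hm i)
  set i0 : Fin D.C.d := ⟨0, D.C.d_pos⟩
  have hB : (m • pullDiv D.φT X.B) w = 0 := by
    rw [Finsupp.smul_apply, pullDiv_apply, B_glued X hw, mul_zero, smul_zero]
  have hreg : ∀ i : Fin D.C.d, OrdGE w (D.φT (D.coef b i (h i)) * D.HT b ^ (i : ℕ)) 0 := fun i => by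
    have := mem_riemannRochSpace.mp (hz i).1 w
    rwa [hB, neg_zero] at this
  rw [D.redT_eq_sum b hf (hi b), ← Finset.add_sum_erase _ _ (Finset.mem_univ i0)]
  have hrest : OrdGE w (∑ i ∈ (Finset.univ : Finset (Fin D.C.d)).erase i0,
      D.φT (D.coef b i (h i)) * D.HT b ^ (i : ℕ)) 1 := OrdGE.sum fun i hne =>
    (hz i).2 (Nat.pos_of_ne_zero fun e => (Finset.ne_of_mem_erase hne) (Fin.ext e)) w hw
  rw [evalAt_add (hreg i0) (hrest.mono zero_le_one),
    (evalAt_eq_zero_iff (hrest.mono zero_le_one)).mpr hrest, add_zero]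
  have he : D.φT (D.coef b i0 (h i0)) * D.HT b ^ ((i0 : Fin D.C.d) : ℕ) =
      D.φT (X.red b (h i0)) := by
    simp [i0, coef]
  rw [he]
  refine evalAt_comp D.φT ?_
  have h0 := D.line_mem_pull_iff.mp (D.lines_mem_rr hf hm i0)
  simp only [i0, Nat.cast_zero, zero_smul, add_zero] at h0
  have hint : ∀ c, h i0 ∈ gInt π (ι₀ c) := fun c => by
    have := D.lines_int c hf (hi c) i0
    rwa [show D.C.line (i0 : ℕ) (h i0) = D.C.φ (h i0) from D.C.line_zero _, D.phi_mem_iff] at this
  have hser := fun c => X.series_int_of_mem (hint c) h0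
  rw [X.red_of_int (hser b)]
  exact X.ordGE_S (X.pole b _ _ hser h0) (B_glued X hw)

/-- Distinct places of the base have distinct chosen places above them. -/
theorem upPlace_injective : Function.Injective D.upPlace := fun s t h => by
  rw [← D.below_upPlace s, ← D.below_upPlace t, h]

open Classical in
/-- **The cover as a curve with two glued reductions.** -/
def degen : Degen π D.ι (D.Kb true) where
  surj := X.surj
  arch := X.arch
  ι_algebraMap b := (D.scal b).ι_algebraMap
  A0 := pullDiv D.C.φ X.A0
  A0_nonneg := Finsupp.le_def.mpr fun w => by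
    rw [pullDiv_apply, Finsupp.zero_apply]
    exact mul_nonneg (Int.natCast_nonneg _) (Finsupp.le_def.mp X.A0_nonneg _)
  B := pullDiv D.φT X.B
  B_nonneg := Finsupp.le_def.mpr fun w => by
    rw [pullDiv_apply, Finsupp.zero_apply]
    exact mul_nonneg (Int.natCast_nonneg _) (Finsupp.le_def.mp X.B_nonneg _)
  B_ne h := by
    have h1 := degree_pullDiv D.φT X.B
    rw [h, map_zero, D.finrankAlong_φT] at h1
    exact mul_ne_zero (by exact_mod_cast D.C.d_ne_zero) X.deg_B_pos.ne' h1.symm
  deg_A0 := by
    rw [degree_pullDiv, degree_pullDiv, D.finrankAlong_φ, D.finrankAlong_φT, X.deg_A0]; ring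
  red_mem b f hf := by
    have := D.gRed_mem b f
    rwa [gRed_of_int hf] at this
  attained b := (D.scal b).attained
  denom b := (D.scal b).denom
  bdd b m f hf := D.bdd_cover b m f (by rwa [map_nsmul])
  pole b m f hi hf := by
    have h1 := D.redT_mem b (f := f) (fun c => mem_gInt_of_int (hi c))
      (by rwa [map_nsmul] : f ∈ riemannRochSpace (pullDiv D.C.φ (m • X.A0)))
    convert h1 using 1
    exact Subtype.ext (gRed_of_int (hi b)).symm
  S := X.S.image D.upPlace
  Qf w := D.upPlace (X.Qf (below D.φT w))
  Qf_inj := fun u hu v hv e => by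
    obtain ⟨s, hs, rfl⟩ := Finset.mem_image.mp hu
    obtain ⟨t, ht, rfl⟩ := Finset.mem_image.mp hv
    simp only [below_upPlace] at e
    exact congrArg _ (X.Qf_inj hs ht (D.upPlace_injective e))
  S_B w hw := by
    obtain ⟨s, hs, rfl⟩ := Finset.mem_image.mp hw
    rw [pullDiv_apply, below_upPlace, X.S_B s hs, mul_zero]
  Qf_B w hw := by
    obtain ⟨s, hs, rfl⟩ := Finset.mem_image.mp hw
    rw [pullDiv_apply, below_upPlace, below_upPlace, X.Qf_B s hs, mul_zero]
  glue m f ht hf hm w hw := by
    obtain ⟨s, hs, rfl⟩ := Finset.mem_image.mp hw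
    simp only [below_upPlace]
    have hi : ∀ c, f ∈ gInt π (D.ι c) := fun c => by
      cases c; exacts [mem_gInt_of_int hf, mem_gInt_of_int ht]
    have hm' : f ∈ riemannRochSpace (pullDiv D.C.φ (m • X.A0)) := by rwa [map_nsmul]
    -- reduce to the zeroth line, which is glued downstairs
    obtain ⟨h, hh⟩ := D.C.exists_lines f
    have e1 := D.evalAt_redT true hh hi hm' (w := D.upPlace s) (by rw [below_upPlace]; exact hs)
    have e2 := D.evalAt_redT false hh hi hm' (w := D.upPlace (X.Qf s))
      (by rw [below_upPlace]; exact Finset.mem_image_of_mem _ hs)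
    rw [below_upPlace] at e1 e2
    have h0 := D.line_mem_pull_iff.mp (D.lines_mem_rr hh hm' ⟨0, D.C.d_pos⟩)
    simp only [Nat.cast_zero, zero_smul, add_zero] at h0
    have hser : ∀ c, ι₀ c (h ⟨0, D.C.d_pos⟩) ∈ intSeries A := fun c => by
      refine X.series_int_of_mem ?_ h0
      have := D.lines_int c hh (hi c) ⟨0, D.C.d_pos⟩
      rwa [D.C.line_zero, D.phi_mem_iff] at this
    have e3 := X.glue m _ (hser true) (hser false) h0 s hs
    rw [← X.red_of_int (hser true), ← X.red_of_int (hser false)] at e3
    convert e1.trans (e3.trans e2.symm) using 2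
    · exact Subtype.ext (gRed_of_int ht).symm
    · exact Subtype.ext (gRed_of_int hf).symm
  count := by
    rw [Finset.card_image_of_injective _ D.upPlace_injective]
    exact D.count_cover

/-- The pole divisor of the cover is the pullback. -/
theorem degen_A0 : D.degen.A0 = pullDiv D.C.φ X.A0 := rfl

/-- The residual pole divisor of the cover is the pullback. -/
theorem degen_B : D.degen.B = pullDiv D.φT X.B := rfl

/-- The reduction of `degen` is `redT`. -/
theorem degen_red (b : Bool) (f : F) : D.degen.red b f = D.redT b f := rfl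

/-- The glued points of the cover lie over those of the base. -/
theorem mem_degen_S {w : Place k (D.Kb true)} :
    w ∈ D.degen.S ↔ ∃ s ∈ X.S, D.upPlace s = w := by
  classical
  exact Finset.mem_image

end Data

end Fermat.BAD.Cover

end
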