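import Fermat.Agent.BAD.Cover.Points

/-!
# The genus count of the cover

The genus of the cover is at most `d (g₀ - 1) + 1` (Riemann's inequality on each line) and the
residue extension obeys Riemann–Hurwitz with total ramification at the glued points, so the
inequality `g + 1 ≤ 2 g' + #S` passes from the base to the cover.
-/

set_option autoImplicit false

attribute [local instance 10000] SubalgebraClass.toAlgebra HahnSeries.powerSeriesAlgebra

noncomputable section

open AlgebraicCurve

namespace Fermat.BAD.Cover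

open Fermat.FF Fermat.JAC Fermat.BAD

variable {L : Type*} [Field L] {A : ValuationSubring L}
variable {k : Type*} [Field k] [IsAlgClosed L] [IsAlgClosed k]
variable {F₀ : Type*} [Field F₀] [Algebra L F₀]
variable {π : A →+* k} {ι₀ : Bool → F₀ →+* LaurentSeries L}
  {K₀ : IntermediateField k (LaurentSeries k)}
variable [FF.IsFunctionField L F₀] [FF.IsFunctionField k K₀]

namespace Data

variable {X : Degen π ι₀ K₀} {F : Type*} [Field F] [Algebra L F] [FF.IsFunctionField L F]
variable (D : Data X F)

/-- The map taking a family of coefficients to the sum of their lines. -/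
def sumLines : (Fin D.C.d → F₀) →ₗ[L] F :=
  ∑ i : Fin D.C.d, ((LinearMap.mulRight L (D.C.g ^ (i : ℕ))).comp D.C.φ.toLinearMap).comp
    (LinearMap.proj i)

/-- The sum of lines, explicitly. -/
theorem sumLines_apply (h : Fin D.C.d → F₀) :
    D.sumLines h = ∑ i : Fin D.C.d, D.C.line i (h i) := by
  simp [sumLines, Cyclic.line_def]

/-- The cover has degree `d` over the base. -/
theorem finrankAlong_φ : finrankAlong L D.C.φ = D.C.d := by
  let := algebraAlong D.C.φ
  let T : (Fin D.C.d → F₀) →ₗ[F₀] F :=
    { toFun := fun h => ∑ i : Fin D.C.d, D.C.line i (h i)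
      map_add' := fun a b => by
        simp only [Pi.add_apply, Cyclic.line_def, map_add, add_mul, Finset.sum_add_distrib]
      map_smul' := fun c a => by
        rw [RingHom.id_apply, Finset.smul_sum]
        refine Finset.sum_congr rfl fun i _ => ?_
        rw [Pi.smul_apply, smul_eq_mul, Cyclic.line_def, Cyclic.line_def, map_mul, mul_assoc,
          Algebra.smul_def]
        rfl }
  have hT : Function.Bijective T := by
    refine ⟨(injective_iff_map_eq_zero T).mpr fun h hh => funext fun i => D.C.eq_zero_of_sum hh i,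
      fun f => ?_⟩
    obtain ⟨h, hh⟩ := D.C.exists_lines f
    exact ⟨h, hh.symm⟩
  change Module.finrank F₀ F = D.C.d
  rw [← (LinearEquiv.ofBijective T hT).finrank_eq, Module.finrank_fin_fun]

/-- The genus of the cover is at most `d (g₀ - 1) + 1`. -/
theorem genus_le : (genusFF L F : ℤ) ≤ (D.C.d : ℤ) * ((genusFF L F₀ : ℤ) - 1) + 1 := by
  classical
  set m := 2 * genusFF L F + 1
  set M : Fin D.C.d → Submodule L F₀ := fun i =>
    riemannRochSpace (m • X.A0 + ((i : ℕ) : ℤ) • D.E)
  let P : (∀ i, M i) →ₗ[L] F := D.sumLines.comp (LinearMap.pi fun i =>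
    (M i).subtype.comp (LinearMap.proj i))
  have hP : ∀ y, P y = ∑ i : Fin D.C.d, D.C.line i (y i : F₀) := fun y => D.sumLines_apply _
  have hinj : Function.Injective P := (injective_iff_map_eq_zero P).mpr fun y hy =>
    funext fun i => Subtype.ext (D.C.eq_zero_of_sum ((hP y).symm.trans hy) i)
  have hrange : LinearMap.range P ≤ riemannRochSpace (pullDiv D.C.φ (m • X.A0)) := by
    rintro _ ⟨y, rfl⟩
    rw [hP]
    exact sum_mem fun i _ => D.line_mem_pull_iff.mpr (y i).2
  -- the lines give independent subspaces of one large Riemann–Roch space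
  have h1 : ∑ i, ell (m • X.A0 + ((i : Fin D.C.d) : ℕ) • D.E) ≤
      ell (pullDiv D.C.φ (m • X.A0)) := by
    refine le_trans (le_of_eq ?_) ((LinearMap.finrank_range_of_inj hinj).ge.trans
      (Submodule.finrank_mono hrange))
    rw [Module.finrank_pi_fintype L (M := fun i : Fin D.C.d => ↥(M i))]
    simp only [M]
    rfl
  have hdegA : Divisor.degree (m • X.A0) = (m : ℤ) * (2 * Divisor.degree X.B) := by
    rw [map_nsmul, X.deg_A0, nsmul_eq_mul]
  have h2 : ∀ i : Fin D.C.d, (m : ℤ) * (2 * Divisor.degree X.B) + 1 - genusFF L F₀ ≤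
      (ell (m • X.A0 + (i : ℕ) • D.E) : ℤ) := fun i => by
    have h := riemann_inequality (m • X.A0 + (i : ℕ) • D.E)
    rwa [map_add, map_nsmul Divisor.degree (i : ℕ) D.E, D.degree_E, smul_zero, add_zero, hdegA] at h
  have h3 : ((D.C.d : ℤ)) * ((m : ℤ) * (2 * Divisor.degree X.B) + 1 - genusFF L F₀) ≤
      ell (pullDiv D.C.φ (m • X.A0)) := by
    refine le_trans ?_ (by exact_mod_cast h1 :
      (∑ i : Fin D.C.d, (ell (m • X.A0 + (i : ℕ) • D.E) : ℤ)) ≤ ell (pullDiv D.C.φ (m • X.A0)))
    refine le_trans (le_of_eq ?_) (Finset.sum_le_sum fun i _ => h2 i)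
    rw [Finset.sum_const, Finset.card_univ, Fintype.card_fin, nsmul_eq_mul]
  have hd1 : (1 : ℤ) ≤ D.C.d := by exact_mod_cast D.C.d_pos
  have hm1 : (m : ℤ) = 2 * (genusFF L F : ℤ) + 1 := by simp [m]
  have hdeg : Divisor.degree (pullDiv D.C.φ (m • X.A0)) =
      (D.C.d : ℤ) * ((m : ℤ) * (2 * Divisor.degree X.B)) := by
    rw [degree_pullDiv, hdegA, D.finrankAlong_φ]
  have h4 := ell_of_degree_ge (D := pullDiv D.C.φ (m • X.A0)) (by
    rw [hdeg]
    have := X.deg_B_pos
    have h5 : (m : ℤ) ≤ (m : ℤ) * (2 * Divisor.degree X.B) :=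
      le_mul_of_one_le_right (Int.natCast_nonneg m) (by omega)
    have h6 : (m : ℤ) * (2 * Divisor.degree X.B) ≤
        (D.C.d : ℤ) * ((m : ℤ) * (2 * Divisor.degree X.B)) :=
      le_mul_of_one_le_left (by linarith [Int.natCast_nonneg m]) hd1
    omega)
  rw [hdeg] at h4
  linarith

/-- A member of a reduced line with poles bounded by `m φ*B` has its coefficient in the space of `m
B + G`. No vanishing at the glued points is assumed: the order of `r` is prime to `d` there. -/
theorem coef_bound {m : ℕ} {i : Fin D.C.d} {y : K₀}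
    (hm : D.φT y * D.HT true ^ (i : ℕ) ∈ riemannRochSpace (m • pullDiv D.φT X.B)) :
    y ∈ riemannRochSpace (m • X.B + if (i : ℕ) = 0 then 0 else D.G true i) := by
  classical
  rcases eq_or_ne y 0 with rfl | hy
  · exact zero_mem _
  rw [mem_riemannRochSpace]
  intro v
  obtain ⟨w, hw⟩ := below_surjective D.φT v
  subst hw
  refine (ordGE_iff_of_ne hy).mpr ?_
  have hz : D.φT y * D.HT true ^ (i : ℕ) ≠ 0 := mul_ne_zero ((map_ne_zero D.φT).mpr hy)
    (pow_ne_zero _ fun e => D.H_ne true (congrArg Subtype.val e))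
  have hd : (0 : ℤ) < D.C.d := by exact_mod_cast D.C.d_pos
  -- The pole bound at `w` over `v` gives `-d m B v ≤ d * ord y + i * ord r`.
  have h1 := mul_le_mul_of_nonneg_left ((mem_riemannRochSpace.mp hm w).le_ord hz) hd.le
  rw [D.d_mul_ord_T true w hy i, Finsupp.smul_apply, pullDiv_apply, nsmul_eq_mul] at h1
  set v := below D.φT w
  have he : (0 : ℤ) < w.ramificationIndexAlong D.φT := by
    exact_mod_cast ramificationIndexAlong_pos D.φT w
  have h2 : -((D.C.d : ℤ) * ((m : ℤ) * X.B v)) ≤
      (D.C.d : ℤ) * v.ord y + ((i : ℕ) : ℤ) * v.ord (D.r true) := by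
    refine le_of_mul_le_mul_left ?_ he
    linarith
  rw [Finsupp.add_apply, Finsupp.smul_apply, nsmul_eq_mul]
  -- Divide by `d`; at a glued point the inequality is strict, `i * ord r` being prime to `d`.
  rcases Nat.eq_zero_or_pos (i : ℕ) with h0 | h0
  · rw [if_pos h0, Finsupp.zero_apply, add_zero]
    rw [h0, Nat.cast_zero, zero_mul, add_zero] at h2
    refine le_of_mul_le_mul_left ?_ hd
    linarith
  · rw [if_neg h0.ne', G_apply, eps_apply]
    set x := ((i : ℕ) : ℤ) * v.ord (D.r true)
    set o := v.ord y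
    by_cases hv : v ∈ glued X true
    · rw [if_pos hv]
      have hnd := D.ord_coprime true hv h0 i.2
      have hne : (D.C.d : ℤ) * o + x ≠ -((D.C.d : ℤ) * ((m : ℤ) * X.B v)) := fun e =>
        hnd ⟨-((m : ℤ) * X.B v) - o, by linarith⟩
      have hlt := Int.lt_ediv_add_one_mul_self (x - 1) hd
      have : 0 < (D.C.d : ℤ) * (o + (m : ℤ) * X.B v + (x - 1) / (D.C.d : ℤ) + 1) := by
        have h3 := lt_of_le_of_ne h2 hne.symm
        linarith
      have := pos_of_mul_pos_right this hd.le
      omega
    · rw [if_neg hv, sub_zero]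
      have hlt := Int.lt_ediv_add_one_mul_self x hd
      have : 0 < (D.C.d : ℤ) * (o + (m : ℤ) * X.B v + x / (D.C.d : ℤ) + 1) := by linarith
      have := pos_of_mul_pos_right this hd.le
      omega

/-- The divisors of the lines `i` and `d - i` have degrees summing to at most minus the number of
glued points. -/
theorem degree_G_pair {i : ℕ} (hid : i < D.C.d) :
    Divisor.degree (D.G true i) + Divisor.degree (D.G true (D.C.d - i)) ≤ -(X.S.card : ℤ) := by
  classical
  have hd : (0 : ℤ) < D.C.d := by exact_mod_cast D.C.d_pos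
  have hQ : D.G true i + D.G true (D.C.d - i) - divOf k (D.r true) + D.eps true ≤ 0 := by
    refine Finsupp.le_def.mpr fun v => ?_
    have he : D.eps true v = 0 ∨ D.eps true v = 1 := by rw [eps_apply]; split <;> simp
    have h := (int_pair_bound (x := (i : ℤ) * v.ord (D.r true)) (r := v.ord (D.r true)) hd he).1
    simp only [Finsupp.add_apply, Finsupp.sub_apply, divOf_apply, G_apply, Nat.cast_sub hid.le,
      sub_mul, Finsupp.zero_apply]
    exact h
  have h := FF.degree_mono hQ
  have he : Divisor.degree (D.eps true) = X.S.card := by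
    rw [eps, map_sum]
    simp [Divisor.degree_single, deg_eq_one, glued]
  simp only [map_add, map_sub, degree_divOf, map_zero, he] at h
  linarith

/-- Riemann–Hurwitz lower bound for the reduced cover, totally ramified at the glued points. -/
theorem genus_res :
    (D.C.d : ℤ) * (2 * (genusFF k K₀ : ℤ) - 2) + ((D.C.d : ℤ) - 1) * X.S.card + 2 ≤
      2 * (genusFF k (D.Kb true) : ℤ) := by
  classical
  set G' : ℕ → Divisor k K₀ := fun i => if i = 0 then 0 else D.G true i with hG'
  obtain ⟨m, hm, hmK⟩ : ∃ m : ℕ, (∀ i : Fin D.C.d,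
      2 * (genusFF k K₀ : ℤ) - 1 ≤ Divisor.degree (m • X.B + G' i)) ∧
      2 * (genusFF k (D.Kb true) : ℤ) - 1 ≤ (m : ℤ) := by
    set N := 2 * genusFF k K₀ + 2 * genusFF k (D.Kb true) +
      ∑ i : Fin D.C.d, (-Divisor.degree (G' i)).toNat with hN
    refine ⟨N, fun i => ?_, by omega⟩
    rw [map_add]
    have h1 := X.le_degree_nsmul_B N
    have h2 := Finset.single_le_sum (f := fun i : Fin D.C.d => (-Divisor.degree (G' i)).toNat)
      (fun _ _ => Nat.zero_le _) (Finset.mem_univ i)
    have h3 := Int.self_le_toNat (-Divisor.degree (G' i))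
    omega
  set M : Fin D.C.d → Submodule k K₀ := fun i => riemannRochSpace (m • X.B + G' i)
  let P : (∀ i, M i) →ₗ[k] D.Kb true :=
    ∑ i : Fin D.C.d, ((LinearMap.mulRight k (D.HT true ^ (i : ℕ))).comp D.φT.toLinearMap).comp
      ((M i).subtype.comp (LinearMap.proj i))
  -- a section is the sum of its lines, each a section downstairs
  have hle : riemannRochSpace (m • pullDiv D.φT X.B) ≤ LinearMap.range P := by
    intro z hz
    obtain ⟨y, hy⟩ := (D.cycK true).exists_lines z
    have hmem : ∀ i : Fin D.C.d, y i ∈ M i := fun i => by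
      refine D.coef_bound (i := i) ?_
      have hline : (D.cycK true).line i (y i) = (D.cycK true).proj i z := by
        rw [hy]; exact ((D.cycK true).proj_sum y i).symm
      have h := (D.cycK true).proj_mem_rr (D := m • X.B) (f := z) (by
        change z ∈ riemannRochSpace (pullDiv D.φT (m • X.B))
        rwa [map_nsmul]) i
      rw [← hline] at h
      change _ ∈ riemannRochSpace (pullDiv D.φT (m • X.B)) at h
      rwa [map_nsmul] at h
    refine ⟨fun i => ⟨y i, hmem i⟩, ?_⟩
    rw [hy]
    simp [P]
    rfl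
  -- given explicitly, as the instance search takes seconds
  have : ∀ i : Fin D.C.d, Module.Free k (M i) := fun i => Module.Free.of_divisionRing k (M i)
  have h1 : ell (m • pullDiv D.φT X.B) ≤ ∑ i : Fin D.C.d, ell (m • X.B + G' i) :=
    (Submodule.finrank_mono hle).trans ((LinearMap.finrank_range_le P).trans
      (le_of_eq (Module.finrank_pi_fintype k (M := fun i : Fin D.C.d => ↥(M i)))))
  have hdegK : Divisor.degree (m • pullDiv D.φT X.B) =
      (D.C.d : ℤ) * ((m : ℤ) * Divisor.degree X.B) := by
    rw [map_nsmul, degree_pullDiv, D.finrankAlong_φT, nsmul_eq_mul]; ring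
  -- Riemann-Roch on both sides at a large level
  have h2 := ell_of_degree_ge (D := m • pullDiv D.φT X.B) (by
    rw [hdegK]
    have := X.deg_B_pos
    have hd1 : (1 : ℤ) ≤ D.C.d := by exact_mod_cast D.C.d_pos
    have h5 : (m : ℤ) ≤ (m : ℤ) * Divisor.degree X.B :=
      le_mul_of_one_le_right (Int.natCast_nonneg m) (by omega)
    have h6 : (m : ℤ) * Divisor.degree X.B ≤ (D.C.d : ℤ) * ((m : ℤ) * Divisor.degree X.B) :=
      le_mul_of_one_le_left (by linarith [Int.natCast_nonneg m]) hd1
    omega)
  rw [hdegK] at h2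
  have h3 : (ell (m • pullDiv D.φT X.B) : ℤ) ≤
      ∑ i : Fin D.C.d, (Divisor.degree (G' i) +
        ((m : ℤ) * Divisor.degree X.B + 1 - genusFF k K₀)) := by
    refine (show (ell (m • pullDiv D.φT X.B) : ℤ) ≤
      ∑ i : Fin D.C.d, (ell (m • X.B + G' i) : ℤ) by exact_mod_cast h1).trans
      (le_of_eq (Finset.sum_congr rfl fun i _ => ?_))
    rw [ell_of_degree_ge (hm i), map_add, map_nsmul, nsmul_eq_mul]
    ring
  rw [Finset.sum_add_distrib, Finset.sum_const, Finset.card_univ, Fintype.card_fin, nsmul_eq_mul,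
    Fin.sum_univ_eq_sum_range (fun i => Divisor.degree (G' i))] at h3
  -- pair the lines `i` and `d - i`
  have hsum : 2 * ∑ i ∈ Finset.range D.C.d, Divisor.degree (G' i) ≤
      -(((D.C.d : ℤ) - 1) * X.S.card) := by
    have hsplit : ∑ i ∈ Finset.range D.C.d, Divisor.degree (G' i) =
        ∑ i ∈ Finset.Ioo 0 D.C.d, Divisor.degree (D.G true i) := by
      refine Eq.trans ?_ (Finset.sum_congr rfl fun i hi => by
        rw [hG']
        simp only
        rw [if_neg (by have := (Finset.mem_Ioo.mp hi).1; omega)] :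
          ∑ i ∈ Finset.Ioo 0 D.C.d, Divisor.degree (G' i) = _)
      refine (Finset.sum_subset (fun i hi => Finset.mem_range.mpr (Finset.mem_Ioo.mp hi).2) ?_).symm
      intro i hi hni
      have h0 : i = 0 := by
        by_contra h
        exact hni (Finset.mem_Ioo.mpr ⟨by omega, Finset.mem_range.mp hi⟩)
      simp [hG', h0]
    have hrefl : ∑ i ∈ Finset.Ioo 0 D.C.d, Divisor.degree (D.G true i) =
        ∑ i ∈ Finset.Ioo 0 D.C.d, Divisor.degree (D.G true (D.C.d - i)) := by
      refine Finset.sum_nbij' (fun i => D.C.d - i) (fun i => D.C.d - i) ?_ ?_ ?_ ?_ ?_ <;>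
        intro i hi <;>
        simp only [Finset.mem_Ioo] at hi ⊢
      · omega
      · omega
      · omega
      · omega
      · rw [Nat.sub_sub_self hi.2.le]
    rw [hsplit, two_mul]
    nth_rewrite 2 [hrefl]
    rw [← Finset.sum_add_distrib]
    refine (Finset.sum_le_sum fun i hi => D.degree_G_pair
      (Finset.mem_Ioo.mp hi).2).trans (le_of_eq ?_)
    rw [Finset.sum_const, Nat.card_Ioo, nsmul_eq_mul, Nat.sub_zero,
      Nat.cast_sub (show 1 ≤ D.C.d from D.C.d_pos), Nat.cast_one]
    ring
  linarith

/-- The genus count of the cover, from that of the base and the two genus bounds. -/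
theorem count_cover :
    genusFF L F + 1 ≤ 2 * genusFF k (D.Kb true) + X.S.card := by
  have h1 := D.genus_le
  have h2 := D.genus_res
  have h3 : (genusFF L F₀ : ℤ) + 1 ≤ 2 * genusFF k K₀ + X.S.card := by exact_mod_cast X.count
  have h4 := mul_le_mul_of_nonneg_left h3 (Int.natCast_nonneg D.C.d)
  zify
  linarith

end Data

end Fermat.BAD.Cover

end
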