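import Fermat.Agent.JAC.PicMaps
import Fermat.Agent.GR.ES.CorrEquiv
import Mathlib.RingTheory.RootsOfUnity.PrimitiveRoots

/-!
# Cyclic extensions of function fields with a Kummer generator

`F` is spanned over `F₀` by the powers of `g` below `d`, and an automorphism `δ` over `F₀`
multiplies `g` by a primitive `d`-th root of unity.  Riemann–Roch spaces of divisors coming from
`F₀` split into lines.
-/

set_option autoImplicit false

noncomputable section

open AlgebraicCurve

namespace Fermat.BAD.Cover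

open Fermat.FF Fermat.JAC

/-- A cyclic extension `F/F₀` with a Kummer generator `g`, `g ^ d = e`, and an automorphism `δ`
multiplying `g` by a primitive `d`-th root of unity. -/
structure Cyclic (L F₀ F : Type*) [Field L] [Field F₀] [Field F] [Algebra L F₀] [Algebra L F] where
  /-- The inclusion of the base field. -/
  φ : F₀ →ₐ[L] F
  /-- The degree `d` of the cyclic extension. -/
  d : ℕ
  /-- The degree is invertible in the constants. -/
  d_ne : (d : L) ≠ 0
  /-- The Kummer generator `g` of `F` over `F₀`. -/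
  g : F
  /-- The generator is nonzero. -/
  g_ne : g ≠ 0
  /-- The element `e` of `F₀` whose `d`-th root is `g`. -/
  e : F₀
  /-- `g ^ d = e`. -/
  g_pow : g ^ d = φ e
  /-- The automorphism `δ` of `F` over `F₀`. -/
  δ : F ≃ₐ[L] F
  /-- The root of unity by which `δ` multiplies `g`. -/
  ζ : L
  /-- `ζ` is primitive of order `d`. -/
  hζ : IsPrimitiveRoot ζ d
  /-- `δ` fixes the base field. -/
  δ_φ : ∀ x, δ (φ x) = φ x
  /-- `δ` multiplies `g` by `ζ`. -/
  δ_g : δ g = ζ • g
  /-- The powers of `g` below `d` span `F` over `F₀`. -/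
  gen : ∀ f, ∃ h : Fin d → F₀, f = ∑ i, φ (h i) * g ^ (i : ℕ)

namespace Cyclic

variable {L F₀ F : Type*} [Field L] [Field F₀] [Field F] [Algebra L F₀] [Algebra L F]
variable (C : Cyclic L F₀ F)

/-- The degree is nonzero. -/
theorem d_ne_zero : C.d ≠ 0 := fun h => C.d_ne (by rw [h, Nat.cast_zero])

/-- The degree is positive. -/
theorem d_pos : 0 < C.d := Nat.pos_of_ne_zero C.d_ne_zero

/-- The Kummer element is nonzero. -/
theorem e_ne : C.e ≠ 0 := fun h => pow_ne_zero C.d C.g_ne (by rw [C.g_pow, h, map_zero])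

/-- The member `φ h * g ^ i` of the `i`-th line with coefficient `h`. -/
def line (i : ℕ) (h : F₀) : F := C.φ h * C.g ^ i

/-- Unfolding lemma for `line`. -/
theorem line_def (i : ℕ) (h : F₀) : C.line i h = C.φ h * C.g ^ i := rfl

/-- The zeroth line is the base field. -/
theorem line_zero (h : F₀) : C.line 0 h = C.φ h := by rw [line, pow_zero, mul_one]

/-- A member of a line with nonzero coefficient is nonzero. -/
theorem line_ne_zero {i : ℕ} {h : F₀} (hh : h ≠ 0) : C.line i h ≠ 0 :=
  mul_ne_zero ((map_ne_zero C.φ).mpr hh) (pow_ne_zero _ C.g_ne)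

/-- A member of a line vanishes iff its coefficient does. -/
theorem line_eq_zero {i : ℕ} {h : F₀} : C.line i h = 0 ↔ h = 0 := by
  refine ⟨fun e => by_contra fun hh => C.line_ne_zero hh e, fun e => ?_⟩
  rw [line, e, map_zero, zero_mul]

/-- The `d`-th power of a member of a line comes from `h ^ d e ^ i` on the base. -/
theorem line_pow (i : ℕ) (h : F₀) : C.line i h ^ C.d = C.φ (h ^ C.d * C.e ^ i) := by
  rw [line, mul_pow, map_mul, map_pow, map_pow, ← pow_mul, mul_comm i, pow_mul, C.g_pow]

/-- Lines are closed under scalars. -/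
theorem line_smul (i : ℕ) (c : L) (h : F₀) : C.line i (c • h) = c • C.line i h := by
  rw [line, line, map_smul, smul_mul_assoc]

/-- `δ` multiplies the `i`-th line by `ζ ^ i`. -/
theorem δ_line (i : ℕ) (h : F₀) : C.δ (C.line i h) = C.ζ ^ i • C.line i h := by
  rw [line, map_mul, map_pow, C.δ_φ, C.δ_g, smul_pow, mul_smul_comm]

/-- The powers of `δ` on a line. -/
theorem δ_pow_line (j i : ℕ) (h : F₀) :
    (C.δ ^ j) (C.line i h) = (C.ζ ^ i) ^ j • C.line i h := by
  induction j with
  | zero => rw [pow_zero, pow_zero, AlgEquiv.one_apply, one_smul]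
  | succ j ih => rw [pow_succ', AlgEquiv.mul_apply, ih, map_smul, δ_line, smul_smul, pow_succ]

/-- The projection to a line. -/
def proj (i : ℕ) : F →ₗ[L] F :=
  (C.d : L)⁻¹ • ∑ j ∈ Finset.range C.d, ((C.ζ ^ i) ^ j)⁻¹ • (C.δ ^ j).toLinearMap

/-- The projection as an average over the powers of `δ`. -/
theorem proj_apply (i : ℕ) (f : F) :
    C.proj i f = (C.d : L)⁻¹ • ∑ j ∈ Finset.range C.d, ((C.ζ ^ i) ^ j)⁻¹ • (C.δ ^ j) f := by
  simp [proj]

/-- The projection to the `i`-th line keeps that line and kills the others. -/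
theorem proj_line {i l : ℕ} (hi : i < C.d) (hl : l < C.d) (h : F₀) :
    C.proj i (C.line l h) = if i = l then C.line l h else 0 := by
  have hζ0 : C.ζ ≠ 0 := C.hζ.ne_zero C.d_ne_zero
  rw [proj_apply]
  simp only [δ_pow_line, smul_smul, ← Finset.sum_smul]
  have e : ∀ j : ℕ, ((C.ζ ^ i) ^ j)⁻¹ * (C.ζ ^ l) ^ j = (C.ζ ^ l / C.ζ ^ i) ^ j := fun j => by
    rw [div_pow, div_eq_inv_mul]
  simp only [e]
  split_ifs with hil
  · subst hil
    rw [div_self (pow_ne_zero _ hζ0)]
    simp [C.d_ne]
  · have hne : C.ζ ^ l / C.ζ ^ i ≠ 1 := fun h1 =>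
      hil (C.hζ.pow_inj hi hl ((div_eq_one_iff_eq (pow_ne_zero _ hζ0)).mp h1).symm)
    have hs : ∑ j ∈ Finset.range C.d, (C.ζ ^ l / C.ζ ^ i) ^ j = 0 := by
      have h2 := mul_geom_sum (C.ζ ^ l / C.ζ ^ i) C.d
      rw [div_pow, ← pow_mul, ← pow_mul, mul_comm l, mul_comm i, pow_mul, pow_mul,
        C.hζ.pow_eq_one, one_pow, one_pow, div_one, sub_self] at h2
      exact (mul_eq_zero.mp h2).resolve_left (sub_ne_zero.mpr hne)
    rw [hs, mul_zero, zero_smul]

/-- The projection to the `i`-th line of a sum of lines. -/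
theorem proj_sum (h : Fin C.d → F₀) (i : Fin C.d) :
    C.proj i (∑ l : Fin C.d, C.line l (h l)) = C.line (i : ℕ) (h i) := by
  rw [map_sum, Finset.sum_eq_single i (fun l _ hl => by
    rw [C.proj_line i.2 l.2, if_neg fun e => hl (Fin.ext e.symm)])
    (fun h => absurd (Finset.mem_univ i) h), C.proj_line i.2 i.2, if_pos rfl]

/-- Every function is a sum of members of the lines. -/
theorem exists_lines (f : F) : ∃ h : Fin C.d → F₀, f = ∑ i : Fin C.d, C.line i (h i) := C.gen f

/-- The lines are independent. -/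
theorem eq_zero_of_sum {h : Fin C.d → F₀} (e : ∑ i : Fin C.d, C.line i (h i) = 0) (i : Fin C.d) :
    h i = 0 := by
  have h1 := C.proj_sum h i
  rw [e, map_zero] at h1
  exact C.line_eq_zero.mp h1.symm

/-- An eigenvector of `δ` lies on a line. -/
theorem exists_eq_line {i : ℕ} (hi : i < C.d) {f : F} (hf : C.δ f = C.ζ ^ i • f) :
    ∃ h, f = C.line i h := by
  obtain ⟨h, hh⟩ := C.exists_lines f
  have hp : ∀ j, (C.δ ^ j) f = (C.ζ ^ i) ^ j • f := fun j => by
    induction j with
    | zero => rw [pow_zero, pow_zero, AlgEquiv.one_apply, one_smul]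
    | succ j ih => rw [pow_succ', AlgEquiv.mul_apply, ih, map_smul, hf, smul_smul, pow_succ]
  have h1 : C.proj i f = f := by
    have e : ∀ j : ℕ, ((C.ζ ^ i) ^ j)⁻¹ • (C.δ ^ j) f = f := fun j => by
      rw [hp, smul_smul, inv_mul_cancel₀ (pow_ne_zero _ (pow_ne_zero _
        (C.hζ.ne_zero C.d_ne_zero))), one_smul]
    simp only [proj_apply, e, Finset.sum_const, Finset.card_range]
    rw [← Nat.cast_smul_eq_nsmul L, smul_smul, inv_mul_cancel₀ C.d_ne, one_smul]
  refine ⟨h ⟨i, hi⟩, ?_⟩
  rw [← h1, hh]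
  exact C.proj_sum h ⟨i, hi⟩

/-- Build the structure from an automorphism of order dividing `d` whose fixed field is `F₀`. -/
def ofFixed (φ : F₀ →ₐ[L] F) (δ : F ≃ₐ[L] F) {d : ℕ} (hd : (d : L) ≠ 0) {ζ : L}
    (hζ : IsPrimitiveRoot ζ d) (g : F) (g_ne : g ≠ 0) (e : F₀) (g_pow : g ^ d = φ e)
    (δ_φ : ∀ x, δ (φ x) = φ x) (δ_g : δ g = ζ • g) (hδ : δ ^ d = 1)
    (fixed : ∀ f, δ f = f → f ∈ φ.range) : Cyclic L F₀ F where
  φ := φ
  d := d
  d_ne := hd
  g := g
  g_ne := g_ne
  e := e
  g_pow := g_pow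
  δ := δ
  ζ := ζ
  hζ := hζ
  δ_φ := δ_φ
  δ_g := δ_g
  gen := fun f => by
    classical
    have hd0 : d ≠ 0 := fun h => hd (by rw [h, Nat.cast_zero])
    have hζ0 : ζ ≠ 0 := hζ.ne_zero hd0
    -- the averages `P i` are eigenvectors, so lie on lines, and they sum to `f`
    let P : ℕ → F := fun i =>
      (d : L)⁻¹ • ∑ j ∈ Finset.range d, ((ζ ^ i) ^ j)⁻¹ • (δ ^ j) f
    have hP : ∀ i, δ (P i) = ζ ^ i • P i := fun i => by
      let T : ℕ → F := fun j => ((ζ ^ i) ^ j)⁻¹ • (δ ^ j) f
      have hT : ∀ j, δ (T j) = ζ ^ i • T (j + 1) := fun j => by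
        simp only [T, map_smul, smul_smul, pow_succ' δ, AlgEquiv.mul_apply, pow_succ (ζ ^ i),
          mul_inv]
        congr 1
        rw [mul_left_comm, mul_inv_cancel₀ (pow_ne_zero _ hζ0), mul_one]
      have hTd : T d = T 0 := by
        simp only [T, hδ, pow_zero, inv_one]
        rw [← pow_mul, mul_comm i, pow_mul, hζ.pow_eq_one, one_pow, inv_one]
      change δ ((d : L)⁻¹ • ∑ j ∈ Finset.range d, T j) =
        ζ ^ i • ((d : L)⁻¹ • ∑ j ∈ Finset.range d, T j)
      have hshift : ∑ j ∈ Finset.range d, T (j + 1) = ∑ j ∈ Finset.range d, T j := by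
        have h1 := Finset.sum_range_succ T d
        rw [Finset.sum_range_succ' T d, hTd] at h1
        exact add_right_cancel h1
      simp only [map_smul, map_sum, hT, ← Finset.smul_sum, hshift]
      rw [smul_comm]
    -- each is a multiple of a power of `g` over the fixed field
    have hq : ∀ i : ℕ, P i * (g ^ i)⁻¹ ∈ φ.range := fun i => fixed _ (by
      rw [map_mul, map_inv₀, map_pow, hP, δ_g, smul_pow, Algebra.smul_def, Algebra.smul_def,
        mul_inv]
      have hz := (map_ne_zero (algebraMap L F)).mpr (pow_ne_zero i hζ0)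
      rw [mul_mul_mul_comm, mul_inv_cancel₀ hz, one_mul])
    choose h hh using hq
    refine ⟨fun i => h i, ?_⟩
    have key : ∀ i : ℕ, φ (h i) * g ^ i = P i := fun i => by
      rw [show φ (h i) = P i * (g ^ i)⁻¹ from hh i, inv_mul_cancel_right₀ (pow_ne_zero _ g_ne)]
    simp only [key]
    rw [Fin.sum_univ_eq_sum_range (fun i => P i) d]
    simp only [P, ← Finset.smul_sum]
    rw [Finset.sum_comm]
    simp only [← Finset.sum_smul]
    -- their sum is `f`, by orthogonality of the characters
    have hs : ∀ j ∈ Finset.range d,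
        ∑ i ∈ Finset.range d, ((ζ ^ i) ^ j)⁻¹ = if j = 0 then (d : L) else 0 := by
      intro j hj
      split_ifs with h0
      · simp [h0]
      · have hne : (ζ ^ j)⁻¹ ≠ 1 := fun h1 => h0 (hζ.pow_inj (Finset.mem_range.mp hj)
          (Nat.pos_of_ne_zero hd0) (by rw [pow_zero]; exact inv_eq_one.mp h1))
        have h2 := mul_geom_sum ((ζ ^ j)⁻¹) d
        rw [inv_pow, ← pow_mul, mul_comm j, pow_mul, hζ.pow_eq_one, one_pow, inv_one, sub_self]
          at h2
        have h3 := (mul_eq_zero.mp h2).resolve_left (sub_ne_zero.mpr hne)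
        refine Eq.trans (Finset.sum_congr rfl fun i _ => ?_) h3
        rw [inv_pow, ← pow_mul, ← pow_mul, mul_comm i]
    rw [Finset.sum_congr rfl fun j hj => by rw [hs j hj], Finset.sum_eq_single 0
      (fun j _ hj => by rw [if_neg hj, zero_smul])
      (fun h => absurd (Finset.mem_range.mpr (Nat.pos_of_ne_zero hd0)) h),
      if_pos rfl, pow_zero, AlgEquiv.one_apply, smul_smul, inv_mul_cancel₀ hd, one_smul]

section RR

variable [IsAlgClosed L] [FF.IsFunctionField L F₀] [FF.IsFunctionField L F]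

/-- The generator of the cover preserves the Riemann–Roch spaces of divisors pulled back from the
base. -/
theorem δ_mem_rr {D : Divisor L F₀} {f : F} (hf : f ∈ riemannRochSpace (pullDiv C.φ D)) :
    C.δ f ∈ riemannRochSpace (pullDiv C.φ D) := by
  set s : SemilinearAut L F := SemilinearAut.ofAlgAut C.δ
  have hfix : s • pullDiv C.φ D = pullDiv C.φ D := by
    have h := Fermat.GR.Corr.pullbackAlong_smul (g := (1 : SemilinearAut L F₀)) (g' := s) C.φ
      (isIntegral_toRingHom C.φ) (fun x => by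
        simp only [one_smul]
        exact C.δ_φ x) D
    rw [one_smul] at h
    exact h.symm
  rw [mem_riemannRochSpace] at hf ⊢
  intro w
  rcases ordGE_iff.mp (hf (s⁻¹ • w)) with h | h
  · rw [h, map_zero]; exact ordGE_zero _ _
  refine ordGE_iff.mpr (.inr ?_)
  have e1 := SemilinearAut.ord_smul s (s⁻¹ • w) f
  rw [smul_inv_smul] at e1
  have e2 : (pullDiv C.φ D) w = (pullDiv C.φ D) (s⁻¹ • w) := by
    conv_lhs => rw [← hfix]
    rw [SemilinearAut.divisor_smul_apply]
  rw [e2]
  exact h.trans_eq e1.symm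

/-- The projections preserve the Riemann–Roch spaces of divisors pulled back from the base. -/
theorem proj_mem_rr {D : Divisor L F₀} {f : F} (hf : f ∈ riemannRochSpace (pullDiv C.φ D)) (i : ℕ) :
    C.proj i f ∈ riemannRochSpace (pullDiv C.φ D) := by
  rw [proj_apply]
  refine Submodule.smul_mem _ _ (Submodule.sum_mem _ fun j hj => Submodule.smul_mem _ _ ?_)
  clear hj
  induction j with
  | zero => simpa using hf
  | succ j ih => rw [pow_succ', AlgEquiv.mul_apply]; exact C.δ_mem_rr ih

/-- Membership of a member of a line in a pulled back Riemann–Roch space, read on the base through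
its `d`-th power. -/
theorem line_mem_rr_iff {D : Divisor L F₀} {i : ℕ} {h : F₀} (hh : h ≠ 0) :
    C.line i h ∈ riemannRochSpace (pullDiv C.φ D) ↔
      ∀ v : Place L F₀, -((C.d : ℤ) * D v) ≤ (C.d : ℤ) * v.ord h + (i : ℤ) * v.ord C.e := by
  have key : ∀ w : Place L F, (C.d : ℤ) * w.ord (C.line i h) =
      (w.ramificationIndexAlong C.φ : ℤ) *
        ((C.d : ℤ) * (below C.φ w).ord h + (i : ℤ) * (below C.φ w).ord C.e) := fun w => by
    rw [← FF.ord_pow, C.line_pow, ord_below, Place.ord_mul _ (pow_ne_zero _ hh)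
      (pow_ne_zero _ C.e_ne), FF.ord_pow, FF.ord_pow]
  rw [mem_riemannRochSpace]
  constructor
  · intro hf v
    obtain ⟨w, rfl⟩ := below_surjective C.φ v
    have h1 := (ordGE_iff_of_ne (C.line_ne_zero hh)).mp (hf w)
    rw [pullDiv_apply] at h1
    have h2 := mul_le_mul_of_nonneg_left h1 (Int.natCast_nonneg C.d)
    rw [key w] at h2
    have hpos : (0 : ℤ) < w.ramificationIndexAlong C.φ := by
      exact_mod_cast ramificationIndexAlong_pos C.φ w
    refine le_of_mul_le_mul_left (le_of_eq_of_le ?_ h2) hpos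
    ring
  · intro hv w
    rw [ordGE_iff_of_ne (C.line_ne_zero hh), pullDiv_apply]
    have h1 := mul_le_mul_of_nonneg_left (hv (below C.φ w))
      (Int.natCast_nonneg (w.ramificationIndexAlong C.φ))
    rw [← key w] at h1
    refine le_of_mul_le_mul_left (le_of_eq_of_le ?_ h1) (Int.natCast_pos.mpr C.d_pos)
    ring

end RR

end Cyclic

end Fermat.BAD.Cover

end
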