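import Fermat.Agent.BAD.Cover.Components

/-!
# The glued points of the cover, and the members of bounded Riemann–Roch spaces

Over each glued point lies one totally ramified point. A function with bounded poles has bounded
expansions, and its reduced nontrivial lines vanish at the glued points.
-/

set_option autoImplicit false

attribute [local instance 10000] SubalgebraClass.toAlgebra HahnSeries.powerSeriesAlgebra

noncomputable section

open AlgebraicCurve

namespace Fermat.BAD.Cover

open Fermat.FF Fermat.JAC Fermat.RED.Model Fermat.BAD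

/-- The ramification indices of a fibre add up to the degree. -/
theorem sum_ramificationIndexAlong {K F F' : Type*} [Field K] [Field F] [Field F'] [Algebra K F]
    [Algebra K F'] [IsAlgClosed K] [FF.IsFunctionField K F] [FF.IsFunctionField K F']
    (φ : F →ₐ[K] F') (v : Place K F) :
    ∑ w ∈ above φ v, w.ramificationIndexAlong φ = finrankAlong K φ := by
  have h := degree_pullDiv φ (Finsupp.single v 1)
  rw [pullDiv_single, map_sum] at h
  simp only [Divisor.degree_single, deg_eq_one, one_mul, Nat.cast_one, mul_one] at h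
  exact_mod_cast h

variable {L : Type*} [Field L] {A : ValuationSubring L}
variable {k : Type*} [Field k] [IsAlgClosed L] [IsAlgClosed k]
variable {F₀ : Type*} [Field F₀] [Algebra L F₀]
variable {π : A →+* k} {ι₀ : Bool → F₀ →+* LaurentSeries L}
  {K₀ : IntermediateField k (LaurentSeries k)}
variable [FF.IsFunctionField L F₀] [FF.IsFunctionField k K₀]

namespace Data

variable {X : Degen π ι₀ K₀} {F : Type*} [Field F] [Algebra L F] [FF.IsFunctionField L F]
variable (D : Data X F)

/-- The inclusion into the residue field of the cover. -/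
def φT : K₀ →ₐ[k] D.Kb true := D.φK true

/-- The inclusion does not change series. -/
theorem coe_φT (z : K₀) : ((D.φT z : D.Kb true) : LaurentSeries k) = z := rfl

/-- The reduced generators in the residue field of the cover. -/
def HT (b : Bool) : D.Kb true := ⟨D.H b, D.Kb_eq b ▸ D.H_mem b⟩

/-- `HT` is `H` as a series. -/
theorem coe_HT (b : Bool) : ((D.HT b : D.Kb true) : LaurentSeries k) = D.H b := rfl

/-- `HT ^ d = r` in the residue field of the cover. -/
theorem HT_pow (b : Bool) : D.HT b ^ D.C.d = D.φT (D.r b) :=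
  Subtype.ext (by rw [SubmonoidClass.coe_pow, coe_HT, coe_φT, coe_r])

/-- The residue extension has degree `d`. -/
theorem finrankAlong_φT : finrankAlong k D.φT = D.C.d := D.finrankAlong_φK true

/-- The orders of the members of a reduced line. -/
theorem d_mul_ord_T (b : Bool) (w : Place k (D.Kb true)) {y : K₀} (hy : y ≠ 0) (i : ℕ) :
    (D.C.d : ℤ) * w.ord (D.φT y * D.HT b ^ i) =
      (w.ramificationIndexAlong D.φT : ℤ) *
        ((D.C.d : ℤ) * (below D.φT w).ord y + (i : ℤ) * (below D.φT w).ord (D.r b)) := by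
  rw [← FF.ord_pow, mul_pow, ← pow_mul, mul_comm i, pow_mul, HT_pow, ← map_pow, ← map_pow,
    ← map_mul, ord_below, Place.ord_mul _ (pow_ne_zero _ hy) (pow_ne_zero _ (D.r_ne b)),
    FF.ord_pow, FF.ord_pow]

/-- The glued points are totally ramified in the residue extension. -/
theorem ram_glued (b : Bool) {w : Place k (D.Kb true)} (hs : below D.φT w ∈ glued X b) :
    w.ramificationIndexAlong D.φT = D.C.d ∧
      ∀ w', below D.φT w' = below D.φT w → w' = w := by
  classical
  -- `d` divides every ramification index above a glued point, as the order there is prime to `d`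
  have hdvd : ∀ u : Place k (D.Kb true), below D.φT u = below D.φT w →
      D.C.d ∣ u.ramificationIndexAlong D.φT := by
    intro u hu
    have h1 := D.d_mul_ord_T b u (y := 1) one_ne_zero 1
    simp only [Place.ord_one, mul_zero, zero_add, Nat.cast_one, one_mul, hu] at h1
    set e := u.ramificationIndexAlong D.φT
    set o := (below D.φT w).ord (D.r b)
    have h2 : (D.C.d : ℤ) ∣ ((e % D.C.d : ℕ) : ℤ) * o := by
      have h3 : (D.C.d : ℤ) ∣ (e : ℤ) * o := ⟨_, h1.symm⟩
      rw [show (e : ℤ) = (D.C.d : ℤ) * ((e / D.C.d : ℕ) : ℤ) + ((e % D.C.d : ℕ) : ℤ) by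
        exact_mod_cast (Nat.div_add_mod e D.C.d).symm, add_mul, mul_assoc] at h3
      exact (dvd_add_right (dvd_mul_right _ _)).mp h3
    refine Nat.dvd_of_mod_eq_zero (Nat.eq_zero_of_not_pos fun hpos => ?_)
    exact D.ord_coprime b hs hpos (Nat.mod_lt _ D.C.d_pos) h2
  -- the indices sum to `d`, so there is one place, of index `d`
  have hsum := sum_ramificationIndexAlong D.φT (below D.φT w)
  rw [D.finrankAlong_φT] at hsum
  have hw : w ∈ above D.φT (below D.φT w) := (mem_above _).mpr rfl
  have hge : ∀ u ∈ above D.φT (below D.φT w), D.C.d ≤ u.ramificationIndexAlong D.φT := fun u hu =>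
    Nat.le_of_dvd (ramificationIndexAlong_pos _ u) (hdvd u ((mem_above _).mp hu))
  have hle := Finset.single_le_sum (f := fun u : Place k (D.Kb true) =>
    u.ramificationIndexAlong D.φT) (fun _ _ => Nat.zero_le _) hw
  rw [hsum] at hle
  refine ⟨le_antisymm hle (hge w hw), fun w' hw' => ?_⟩
  by_contra hne
  have hw'' : w' ∈ above D.φT (below D.φT w) := (mem_above _).mpr hw'
  have h2 := Finset.sum_le_sum_of_subset (f := fun u : Place k (D.Kb true) =>
    u.ramificationIndexAlong D.φT) (s := {w', w}) (t := above D.φT (below D.φT w))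
    (Finset.insert_subset hw'' (Finset.singleton_subset_iff.mpr hw))
  rw [Finset.sum_pair hne, hsum] at h2
  have := hge w' hw''
  have := hge w hw
  have := D.C.d_pos
  omega

/-- The place of the cover over a place of the residue field of the base. -/
def upPlace (s : Place k K₀) : Place k (D.Kb true) := (below_surjective D.φT s).choose

/-- `upPlace` is a section of `below`. -/
theorem below_upPlace (s : Place k K₀) : below D.φT (D.upPlace s) = s :=
  (below_surjective D.φT s).choose_spec

/-- A glued point has only one place above it. -/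
theorem upPlace_unique {b : Bool} {s : Place k K₀} (hs : s ∈ glued X b) {w : Place k (D.Kb true)}
    (hw : below D.φT w = s) : w = D.upPlace s :=
  (D.ram_glued b (w := D.upPlace s) (by rwa [below_upPlace])).2 w (by rw [below_upPlace, hw])

/-- The lines of a member of a Riemann–Roch space pulled back from the base lie in it too. -/
theorem lines_mem_rr {A' : Divisor L F₀} {h : Fin D.C.d → F₀} {f : F}
    (hf : f = ∑ i : Fin D.C.d, D.C.line i (h i)) (hm : f ∈ riemannRochSpace (pullDiv D.C.φ A'))
    (i : Fin D.C.d) : D.C.line i (h i) ∈ riemannRochSpace (pullDiv D.C.φ A') := by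
  rw [← D.C.proj_sum h i, ← hf]
  exact D.C.proj_mem_rr hm i

/-- Functions of the cover with bounded poles have bounded expansions at both components. -/
theorem bdd_cover (b : Bool) (m : ℕ) (f : F)
    (hm : f ∈ riemannRochSpace (pullDiv D.C.φ (m • X.A0))) :
    ∃ a : L, a ≠ 0 ∧ D.ι b (a • f) ∈ intSeries A := by
  classical
  obtain ⟨h, hf⟩ := D.C.exists_lines f
  have hl : ∀ i : Fin D.C.d, ∃ c : L, c ≠ 0 ∧ D.ι b (c • D.C.line i (h i)) ∈ intSeries A := by
    intro i
    rcases eq_or_ne (h i) 0 with hi | hi
    · exact ⟨1, one_ne_zero, by rw [D.C.line_eq_zero.mpr hi, smul_zero, map_zero]; exact zero_mem _⟩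
    obtain ⟨c, hc, hint, -⟩ := exists_joint D.scal (D.C.line_ne_zero (i := i) hi)
    refine ⟨c, hc, (D.scal b).series_int_of_pow (arch_base X) (hint b) D.C.d_ne_zero ?_⟩
    have hm' : D.C.line i (c • h i) ∈ riemannRochSpace (pullDiv D.C.φ (m • X.A0)) := by
      rw [Cyclic.line_smul]; exact Submodule.smul_mem _ c (D.lines_mem_rr hf hm i)
    obtain ⟨-, hx⟩ := D.pow_data (fun b' => by rw [Cyclic.line_smul]; exact hint b') hm'
    rw [← Cyclic.line_smul, D.C.line_pow, D.comp]
    exact (hx b).1
  -- one scalar serves all lines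
  choose c hc hci using hl
  obtain ⟨a, ha, hdiv, -⟩ := exists_div_mem (A := A)
    (Finset.univ.image some ∪ {none}) (fun o : Option (Fin D.C.d) => o.elim 1 fun i => (c i)⁻¹)
    ⟨none, Finset.mem_union_right _ (Finset.mem_singleton_self none), one_ne_zero⟩
  refine ⟨a⁻¹, inv_ne_zero ha, ?_⟩
  rw [hf, Finset.smul_sum, map_sum]
  refine sum_mem fun i _ => ?_
  rw [show a⁻¹ • D.C.line i (h i) =
      algebraMap L F ((c i)⁻¹ / a) * (c i • D.C.line i (h i)) by
    rw [← Algebra.smul_def, smul_smul, div_mul_eq_mul_div, inv_mul_cancel₀ (hc i), one_div],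
    map_mul]
  exact mul_mem ((D.scal b).series_algebraMap (hdiv (some i) (Finset.mem_union_left _
    (Finset.mem_image_of_mem _ (Finset.mem_univ i))))) (hci i)

/-- A reduced member of a bounded line has poles bounded by `m φ*B`, and vanishes at the points
above the glued points if the line is nontrivial. -/
theorem red_line_data (b : Bool) {m : ℕ} {i : Fin D.C.d} {h : F₀}
    (hi : ∀ c, D.C.line i h ∈ gInt π (D.ι c))
    (hm : D.C.line i h ∈ riemannRochSpace (pullDiv D.C.φ (m • X.A0))) :
    (D.φT (D.coef b i h) * D.HT b ^ (i : ℕ)) ∈ riemannRochSpace (m • pullDiv D.φT X.B) ∧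
      (0 < (i : ℕ) → ∀ w : Place k (D.Kb true), below D.φT w ∈ glued X b →
        OrdGE w (D.φT (D.coef b i h) * D.HT b ^ (i : ℕ)) 1) := by
  classical
  obtain ⟨hrr, hx⟩ := D.pow_data hi hm
  set z := D.φT (D.coef b i h) * D.HT b ^ (i : ℕ) with hzdef
  rcases eq_or_ne (D.coef b i h) 0 with hc | hc
  · have : z = 0 := by rw [hzdef, hc, map_zero, zero_mul]
    rw [this]
    exact ⟨zero_mem _, fun _ w _ => ordGE_zero _ _⟩
  have hz : z ≠ 0 := mul_ne_zero ((map_ne_zero D.φT).mpr hc)
    (pow_ne_zero _ fun e => D.H_ne b (congrArg Subtype.val e))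
  have hd : (0 : ℤ) < D.C.d := by exact_mod_cast D.C.d_pos
  -- compare with the `d`-th power, a pull back with poles bounded by `X.B`
  constructor
  · rw [mem_riemannRochSpace]
    intro w
    refine (ordGE_iff_of_ne hz).mpr (le_of_mul_le_mul_left ?_ hd)
    rw [D.d_mul_ord_T b w hc i, Finsupp.smul_apply, pullDiv_apply, nsmul_eq_mul]
    set e := (w.ramificationIndexAlong D.φT : ℤ)
    set v := below D.φT w
    have hpole : X.red b (h ^ D.C.d * D.C.e ^ (i : ℕ)) ∈ riemannRochSpace ((D.C.d * m) • X.B) := by
      rw [X.red_of_int (hx b).1]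
      exact X.pole b _ _ (fun c => (hx c).1) hrr
    have hxy : X.red b (h ^ D.C.d * D.C.e ^ (i : ℕ)) = D.coef b i h ^ D.C.d * D.r b ^ (i : ℕ) :=
      Subtype.ext (by
        rw [(hx b).2, (D.line_red b i (hi b)).2, MulMemClass.coe_mul, SubmonoidClass.coe_pow,
          SubmonoidClass.coe_pow, D.coe_r, mul_pow, ← pow_mul, ← pow_mul, mul_comm (i : ℕ)]
        rfl)
    have h1 := (mem_riemannRochSpace.mp hpole v).le_ord (by
      rw [hxy]; exact mul_ne_zero (pow_ne_zero _ hc) (pow_ne_zero _ (D.r_ne b)))
    rw [hxy, Place.ord_mul _ (pow_ne_zero _ hc) (pow_ne_zero _ (D.r_ne b)), FF.ord_pow, FF.ord_pow,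
      Finsupp.smul_apply, nsmul_eq_mul] at h1
    push_cast at h1 ⊢
    have he : 0 ≤ e := Int.natCast_nonneg _
    have h2 := mul_le_mul_of_nonneg_left h1 he
    linarith
  · intro hi0 w hw
    set v := below D.φT w
    have h1 := mem_riemannRochSpace.mp (D.coeff_mem b hi0 i.2 hi hm) v
    have h2 : -((m • X.B + D.G b i) v) ≤ v.ord (D.coef b i h) := h1.le_ord hc
    rw [Finsupp.add_apply, Finsupp.smul_apply, B_glued X hw, smul_zero, zero_add, G_apply,
      eps_apply, if_pos hw] at h2
    set q := (((i : ℕ) : ℤ) * v.ord (D.r b) - 1) / (D.C.d : ℤ)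
    have h3 : (D.C.d : ℤ) * q ≤ ((i : ℕ) : ℤ) * v.ord (D.r b) - 1 :=
      Int.mul_ediv_self_le (ne_of_gt hd)
    have h4 := mul_le_mul_of_nonneg_left h2 hd.le
    refine (ordGE_iff_of_ne hz).mpr ?_
    have h5 := D.d_mul_ord_T b w hc i
    have h6 : (1 : ℤ) ≤ w.ramificationIndexAlong D.φT := by
      exact_mod_cast ramificationIndexAlong_pos D.φT w
    have h7 : (1 : ℤ) ≤ (D.C.d : ℤ) * v.ord (D.coef b i h) + ((i : ℕ) : ℤ) * v.ord (D.r b) := by
      linarith
    have h8 : (0 : ℤ) < (D.C.d : ℤ) * w.ord z := by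
      rw [hzdef, h5]
      exact mul_pos (lt_of_lt_of_le zero_lt_one h6) (lt_of_lt_of_le zero_lt_one h7)
    have := pos_of_mul_pos_right h8 hd.le
    omega

end Data

end Fermat.BAD.Cover

end
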