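import Fermat.Agent.BAD.Cover.Data

/-!
# Total ramification of the reduced cover at the glued points

On a nontrivial line the functions integral at both components vanish at the glued points, as
inertia changes one of the two glued values only.  Counting dimensions then forces the order of
the reduced Kummer element to be prime to the degree at every glued point, and divisible by it
everywhere else.
-/

set_option autoImplicit false

attribute [local instance 10000] SubalgebraClass.toAlgebra HahnSeries.powerSeriesAlgebra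

noncomputable section

open AlgebraicCurve

namespace Fermat.BAD.Cover

open Fermat.FF Fermat.JAC Fermat.RED.Model Fermat.BAD

/-- The rounding inequality for a pair of lines at a glued point; equality forces `d ∣ x` exactly
when `ε = 0`. -/
theorem int_pair_bound {d x r ε : ℤ} (hd : 0 < d) (hε : ε = 0 ∨ ε = 1) :
    (x - ε) / d + (d * r - x - ε) / d - r + ε ≤ 0 ∧
      ((x - ε) / d + (d * r - x - ε) / d - r + ε = 0 → (d ∣ x ↔ ε = 0)) := by
  have h1 : d * ((x - ε) / d) ≤ x - ε := Int.mul_ediv_self_le (ne_of_gt hd)
  have h2 : d * ((d * r - x - ε) / d) ≤ d * r - x - ε := Int.mul_ediv_self_le (ne_of_gt hd)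
  set a := (x - ε) / d
  set b := (d * r - x - ε) / d
  have h3 : d * (a + b - r) ≤ -2 * ε := by linarith
  rcases hε with rfl | rfl
  · refine ⟨?_, fun h0 => ⟨fun _ => rfl, fun _ => ⟨a, ?_⟩⟩⟩
    · by_contra hc
      have := mul_le_mul_of_nonneg_left (show 1 ≤ a + b - r by omega) hd.le
      linarith
    · have : a + b = r := by omega
      have e : d * a + d * b = d * r := by rw [← mul_add, this]
      linarith
  · refine ⟨?_, fun h0 => ⟨fun ⟨c, hc⟩ => ?_, fun h => absurd h one_ne_zero⟩⟩
    · by_contra hc
      have := mul_le_mul_of_nonneg_left (show 0 ≤ a + b - r by omega) hd.le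
      linarith
    · exfalso
      subst hc
      have ha : a ≤ c - 1 := by
        by_contra hh
        have := mul_le_mul_of_nonneg_left (show c ≤ a by omega) hd.le
        linarith
      have hb : b ≤ r - c - 1 := by
        by_contra hh
        have := mul_le_mul_of_nonneg_left (show r - c ≤ b by omega) hd.le
        rw [mul_sub] at this
        linarith
      omega

variable {L : Type*} [Field L] {A : ValuationSubring L}
variable {k : Type*} [Field k] [IsAlgClosed L] [IsAlgClosed k]
variable {F₀ : Type*} [Field F₀] [Algebra L F₀]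
variable {π : A →+* k} {ι₀ : Bool → F₀ →+* LaurentSeries L}
  {K₀ : IntermediateField k (LaurentSeries k)}
variable [FF.IsFunctionField L F₀] [FF.IsFunctionField k K₀]

/-- The glued points on one component. -/
def glued (X : Degen π ι₀ K₀) : Bool → Finset (Place k K₀)
  | true => X.S
  | false => by classical exact X.S.image X.Qf

omit [IsAlgClosed L] in
/-- There are `#S` glued points on each component. -/
theorem card_glued (X : Degen π ι₀ K₀) (b : Bool) : (glued X b).card = X.S.card := by
  classical
  cases b
  · exact Finset.card_image_of_injOn X.Qf_inj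
  · rfl

omit [IsAlgClosed L] in
/-- `B` avoids the glued points. -/
theorem B_glued (X : Degen π ι₀ K₀) {b : Bool} {s : Place k K₀} (hs : s ∈ glued X b) :
    X.B s = 0 := by
  classical
  cases b
  · obtain ⟨t, ht, rfl⟩ := Finset.mem_image.mp hs
    exact X.Qf_B t ht
  · exact X.S_B s hs

namespace Data

variable {X : Degen π ι₀ K₀} {F : Type*} [Field F] [Algebra L F] [FF.IsFunctionField L F]
variable (D : Data X F)

open Classical in
/-- The sum of the glued points of a component, as a divisor. -/
def eps (_D : Data X F) (b : Bool) : Divisor k K₀ :=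
  ∑ s ∈ glued X b, Finsupp.single s 1

/-- The coefficient of `eps` at a place. -/
theorem eps_apply (b : Bool) (v : Place k K₀) [Decidable (v ∈ glued X b)] :
    D.eps b v = if v ∈ glued X b then 1 else 0 := by
  classical
  rw [eps, Finsupp.finsetSum_apply]
  simp [Finsupp.single_apply]

/-- `⌊(i div r - eps) / d⌋`, the divisor bounding the reduced coefficients of the `i`-th line. -/
def G (b : Bool) (i : ℕ) : Divisor k K₀ :=
  ((i : ℤ) • divOf k (D.r b) - D.eps b).mapRange (· / (D.C.d : ℤ)) (Int.zero_ediv _)

/-- The coefficient of `G` at a place. -/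
theorem G_apply (b : Bool) (i : ℕ) (v : Place k K₀) :
    D.G b i v = ((i : ℤ) * v.ord (D.r b) - D.eps b v) / (D.C.d : ℤ) := by
  rw [G, Finsupp.mapRange_apply, Finsupp.sub_apply, Finsupp.smul_apply, divOf_apply, smul_eq_mul]

/-- The reduced coefficient of a bounded member of a nontrivial line integral at both components
lies in the space of `m B + G`. The twist makes the glued values of its `d`-th power vanish. -/
theorem coeff_mem (b : Bool) {i m : ℕ} (hi0 : 0 < i) (hid : i < D.C.d) {h : F₀}
    (hi : ∀ b, D.C.line i h ∈ gInt π (D.ι b))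
    (hm : D.C.line i h ∈ riemannRochSpace (pullDiv D.C.φ (m • X.A0))) :
    X.red b ((D.sc b ^ i)⁻¹ • h) ∈ riemannRochSpace (m • X.B + D.G b i) := by
  classical
  obtain ⟨hrr, hx⟩ := D.pow_data hi hm
  set x := h ^ D.C.d * D.C.e ^ i
  set y := X.red b ((D.sc b ^ i)⁻¹ • h)
  have hpole : ∀ c, X.red c x ∈ riemannRochSpace ((D.C.d * m) • X.B) := fun c => by
    rw [X.red_of_int (hx c).1]
    exact X.pole c _ x (fun c' => (hx c').1) hrr
  have hglue : ∀ s ∈ X.S, evalAt s (X.red true x) = evalAt (X.Qf s) (X.red false x) :=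
      fun s hs => by
    rw [X.red_of_int (hx true).1, X.red_of_int (hx false).1]
    exact X.glue _ x (hx true).1 (hx false).1 hrr s hs
  have hreg : ∀ c, ∀ s ∈ glued X c, OrdGE s (X.red c x) 0 := fun c s hs =>
    X.ordGE_S (hpole c) (B_glued X hs)
  -- inertia kills both glued values
  have hzero : ∀ s ∈ X.S,
      evalAt s (X.red true x) = 0 ∧ evalAt (X.Qf s) (X.red false x) = 0 := by
    intro s hs
    obtain ⟨c, hc, htw⟩ := D.twist i hi0 hid
    obtain ⟨h', hi', hm', ht', hf'⟩ := htw m h hi hm
    have hi'' : ∀ b, D.C.line i (h' - h) ∈ gInt π (D.ι b) := fun b => by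
      rw [Cyclic.line_def, map_sub, sub_mul]; exact sub_mem (hi' b) (hi b)
    have hm'' : D.C.line i (h' - h) ∈ riemannRochSpace (pullDiv D.C.φ (m • X.A0)) := by
      rw [Cyclic.line_def, map_sub, sub_mul]; exact sub_mem hm' hm
    obtain ⟨hrr', hx'⟩ := D.pow_data hi'' hm''
    set x' := (h' - h) ^ D.C.d * D.C.e ^ i
    have hline : D.C.line i (h' - h) = D.C.line i h' - D.C.line i h := by
      rw [Cyclic.line_def, map_sub, sub_mul]; rfl
    have e1 : X.red true x' = 0 := Subtype.ext (by
      rw [(hx' true).2, hline, gRed_sub (hi' true) (hi true), ht', sub_self,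
        zero_pow D.C.d_ne_zero]
      rfl)
    have e2 : X.red false x' = (c - 1) ^ D.C.d • X.red false x := Subtype.ext (by
      rw [(hx' false).2, hline, gRed_sub (hi' false) (hi false), hf', Algebra.smul_def,
        MulMemClass.coe_mul, (hx false).2, ← sub_one_mul, mul_pow]
      congr 1
      rw [← map_one (algebraMap k (LaurentSeries k)), ← map_sub, ← map_pow]
      rfl)
    have hg' : evalAt s (X.red true x') = evalAt (X.Qf s) (X.red false x') := by
      rw [X.red_of_int (hx' true).1, X.red_of_int (hx' false).1]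
      exact X.glue _ x' (hx' true).1 (hx' false).1 hrr' s hs
    have hr := hreg false (X.Qf s) (Finset.mem_image_of_mem _ hs)
    rw [e1, e2, Algebra.smul_def, evalAt_mul (ordGE_algebraMap _ _) hr, evalAt_algebraMap,
      show evalAt s (0 : K₀) = 0 by simpa using evalAt_algebraMap s (0 : k)] at hg'
    have h2 := (mul_eq_zero.mp hg'.symm).resolve_left (pow_ne_zero _ (sub_ne_zero.mpr hc))
    exact ⟨(hglue s hs).trans h2, h2⟩
  have hxy : X.red b x = y ^ D.C.d * D.r b ^ i := Subtype.ext (by
    rw [(hx b).2, (D.line_red b i (hi b)).2, MulMemClass.coe_mul, SubmonoidClass.coe_pow,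
      SubmonoidClass.coe_pow, D.coe_r, mul_pow, ← pow_mul, ← pow_mul, mul_comm i])
  -- read the bound on `x = h ^ d e ^ i` at each place
  rcases eq_or_ne y 0 with hy | hy
  · rw [hy]; exact zero_mem _
  rw [mem_riemannRochSpace]
  intro v
  refine (ordGE_iff_of_ne hy).mpr ?_
  have hord : v.ord (X.red b x) = (D.C.d : ℤ) * v.ord y + (i : ℤ) * v.ord (D.r b) := by
    rw [hxy, Place.ord_mul _ (pow_ne_zero _ hy) (pow_ne_zero _ (D.r_ne b)), FF.ord_pow,
      FF.ord_pow]
  have hne : X.red b x ≠ 0 := by
    rw [hxy]; exact mul_ne_zero (pow_ne_zero _ hy) (pow_ne_zero _ (D.r_ne b))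
  have hlow : -((D.C.d : ℤ) * (m : ℤ) * X.B v) + D.eps b v ≤ v.ord (X.red b x) := by
    by_cases hv : v ∈ glued X b
    · have h1 : OrdGE v (X.red b x) 1 := by
        refine (evalAt_eq_zero_iff (hreg b v hv)).mp ?_
        cases b
        · obtain ⟨s, hs, rfl⟩ := Finset.mem_image.mp hv
          exact (hzero s hs).2
        · exact (hzero v hv).1
      have := h1.le_ord hne
      rw [eps_apply, if_pos hv, B_glued X hv, mul_zero, neg_zero, zero_add]
      exact this
    · rw [eps_apply, if_neg hv, add_zero]
      have := (mem_riemannRochSpace.mp (hpole b) v).le_ord hne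
      simpa [mul_assoc] using this
  rw [Finsupp.add_apply, Finsupp.smul_apply, nsmul_eq_mul, G_apply]
  set q := ((i : ℤ) * v.ord (D.r b) - D.eps b v) / (D.C.d : ℤ)
  have hd : (0 : ℤ) < D.C.d := by exact_mod_cast D.C.d_pos
  have hlt : (i : ℤ) * v.ord (D.r b) - D.eps b v < (D.C.d : ℤ) * (q + 1) := by
    have := Int.lt_ediv_add_one_mul_self ((i : ℤ) * v.ord (D.r b) - D.eps b v) hd
    linarith
  rw [hord] at hlow
  have : 0 < (D.C.d : ℤ) * (v.ord y + (m : ℤ) * X.B v + q + 1) := by
    simp only [mul_add]
    linarith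
  have := pos_of_mul_pos_right this hd.le
  linarith

/-- The pair of coefficients `y` seen as the pair of reduced members `y b * H b ^ i` of the `i`-th
line. -/
def pairMap (i : ℕ) (P : Bool → Submodule k K₀) :
    (∀ b, P b) →ₗ[k] (Bool → LaurentSeries k) where
  toFun y b := ((y b : K₀) : LaurentSeries k) * D.H b ^ i
  map_add' y z := funext fun b => by
    simp only [Pi.add_apply, AddMemClass.coe_add, add_mul]
  map_smul' c y := funext fun b => by
    simp only [Pi.smul_apply, Submodule.coe_smul, RingHom.id_apply,
      Fermat.RED.laurent_smul_def, Algebra.smul_def, MulMemClass.coe_mul]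
    exact mul_assoc _ _ _

/-- Reduction loses no dimensions on the `i`-th line, so the two bounding divisors have total degree
at least `-#S`. -/
theorem degree_G_ge {i : ℕ} (hi0 : 0 < i) (hid : i < D.C.d) :
    -(X.S.card : ℤ) ≤ Divisor.degree (D.G true i) + Divisor.degree (D.G false i) := by
  classical
  obtain ⟨m, hm⟩ : ∃ m : ℕ, ∀ b, 2 * (genusFF k K₀ : ℤ) - 1 ≤
      Divisor.degree (m • X.B + D.G b i) := by
    refine ⟨2 * genusFF k K₀ + (-Divisor.degree (D.G true i)).toNat +
      (-Divisor.degree (D.G false i)).toNat, fun b => ?_⟩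
    rw [map_add]
    have := X.le_degree_nsmul_B (2 * genusFF k K₀ + (-Divisor.degree (D.G true i)).toNat +
      (-Divisor.degree (D.G false i)).toNat)
    have h1 := Int.self_le_toNat (-Divisor.degree (D.G true i))
    have h2 := Int.self_le_toNat (-Divisor.degree (D.G false i))
    push_cast at this ⊢
    cases b <;> omega
  -- compare the bounded sections on the line with the pairs of their reduced coefficients
  let W : Submodule L F := (riemannRochSpace (m • X.A0 + (i : ℤ) • D.E)).map
    ((LinearMap.mulRight L (D.C.g ^ i)).comp D.C.φ.toLinearMap)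
  let V := LinearMap.range (D.pairMap i fun b => riemannRochSpace (m • X.B + D.G b i))
  have hinj : Function.Injective ((LinearMap.mulRight L (D.C.g ^ i)).comp D.C.φ.toLinearMap) :=
    fun a b h => D.C.φ.injective (mul_right_cancel₀ (pow_ne_zero _ D.C.g_ne) h)
  have : FiniteDimensional L W := Module.Finite.map _ _
  -- searched once and not under the binder of the product, where a failing branch costs seconds
  have : ∀ b, Module.Free k ↥(riemannRochSpace (m • X.B + D.G b i)) :=
    fun _ => Module.Free.of_divisionRing k _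
  have : FiniteDimensional k V := Module.Finite.range _
  have hle := finrank_le_of_red D.scal W V fun f hf hint => by
    obtain ⟨h, hh, rfl⟩ := hf
    have hm' : D.C.line i h ∈ riemannRochSpace (pullDiv D.C.φ (m • X.A0)) :=
      D.line_mem_pull_iff.mpr hh
    refine ⟨fun b => ⟨_, D.coeff_mem b hi0 hid hint hm'⟩, funext fun b => ?_⟩
    exact (D.line_red b i (hint b)).2.symm
  have hW : Module.finrank L W = ell (m • X.A0 + (i : ℤ) • D.E) :=
    (Submodule.equivMapOfInjective _ hinj _).finrank_eq.symm
  have hV : Module.finrank k V ≤ ∑ b, ell (m • X.B + D.G b i) :=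
    le_trans (LinearMap.finrank_range_le _) (le_of_eq (Module.finrank_pi_fintype k
      (M := fun b : Bool => ↥(riemannRochSpace (m • X.B + D.G b i)))))
  rw [Fintype.sum_bool] at hV
  have hlow := riemann_inequality (m • X.A0 + (i : ℤ) • D.E)
  have ht := ell_of_degree_ge (hm true)
  have hf := ell_of_degree_ge (hm false)
  rw [map_add] at ht hf
  rw [map_add, map_nsmul, map_zsmul, D.degree_E, smul_zero, add_zero, X.deg_A0, nsmul_eq_mul]
    at hlow
  rw [map_nsmul, nsmul_eq_mul] at ht hf
  have hc := X.count
  have h3 : (ell (m • X.A0 + (i : ℤ) • D.E) : ℤ) ≤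
      ell (m • X.B + D.G true i) + ell (m • X.B + D.G false i) := by
    exact_mod_cast (hW ▸ hle).trans hV
  have h4 : (m : ℤ) * (2 * Divisor.degree X.B) = 2 * ((m : ℤ) * Divisor.degree X.B) := by ring
  omega

/-- **The orders of the reduced Kummer element**: for `0 < i < d`, `d` divides `i ord_v r` exactly
when `v` is not glued. Indeed the bounds for the lines `i` and `d - i` have no room to spare. -/
theorem dvd_ord_iff (b : Bool) {i : ℕ} (hi0 : 0 < i) (hid : i < D.C.d) (v : Place k K₀) :
    (D.C.d : ℤ) ∣ (i : ℤ) * v.ord (D.r b) ↔ v ∉ glued X b := by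
  classical
  set Q : Bool → Divisor k K₀ := fun c =>
    D.G c i + D.G c (D.C.d - i) - divOf k (D.r c) + D.eps c
  have hd : (0 : ℤ) < D.C.d := by exact_mod_cast D.C.d_pos
  have hQ : ∀ c u, Q c u ≤ 0 ∧
      (Q c u = 0 → ((D.C.d : ℤ) ∣ (i : ℤ) * u.ord (D.r c) ↔ u ∉ glued X c)) := by
    intro c u
    have e : D.G c (D.C.d - i) u =
        ((D.C.d : ℤ) * u.ord (D.r c) - (i : ℤ) * u.ord (D.r c) - D.eps c u) / (D.C.d : ℤ) := by
      rw [G_apply, Nat.cast_sub hid.le, sub_mul]
    have he : D.eps c u = 0 ∨ D.eps c u = 1 := by rw [eps_apply]; split <;> simp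
    obtain ⟨h1, h2⟩ := int_pair_bound (x := (i : ℤ) * u.ord (D.r c)) (r := u.ord (D.r c)) hd he
    simp only [Q, Finsupp.add_apply, Finsupp.sub_apply, divOf_apply, e, G_apply]
    refine ⟨h1, fun h0 => (h2 h0).trans ?_⟩
    rw [eps_apply]
    split <;> simp_all
  have hnonpos : ∀ c, Q c ≤ 0 := fun c => Finsupp.le_def.mpr fun u => (hQ c u).1
  -- `Q ≤ 0` has nonnegative total degree, so vanishes
  have hdeg : 0 ≤ Divisor.degree (Q true) + Divisor.degree (Q false) := by
    have h1 := D.degree_G_ge hi0 hid
    have h2 := D.degree_G_ge (i := D.C.d - i) (by omega) (by omega)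
    have he : ∀ c, Divisor.degree (D.eps c) = X.S.card := fun c => by
      rw [eps, map_sum, ← card_glued X c]
      simp [Divisor.degree_single, deg_eq_one]
    simp only [Q, map_add, map_sub, degree_divOf, he]
    linarith
  have hzero : ∀ c, Q c = 0 := by
    have h1 : ∀ c, Divisor.degree (Q c) ≤ 0 := fun c => by
      simpa using FF.degree_mono (hnonpos c)
    intro c
    have h2 : Divisor.degree (-(Q c)) = 0 := by
      rw [map_neg]
      have h3 := h1 true
      have h4 := h1 false
      cases c <;> omega
    simpa using FF.eq_zero_of_nonneg_of_degree (neg_nonneg.mpr (hnonpos c)) h2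
  exact (hQ b v).2 (by rw [hzero b]; rfl)

/-- The order at a glued point is prime to the degree. -/
theorem ord_coprime (b : Bool) {s : Place k K₀} (hs : s ∈ glued X b) {i : ℕ} (hi0 : 0 < i)
    (hid : i < D.C.d) : ¬ (D.C.d : ℤ) ∣ (i : ℤ) * s.ord (D.r b) :=
  fun h => ((D.dvd_ord_iff b hi0 hid s).mp h) hs

end Data

end Fermat.BAD.Cover

end
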