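import Fermat.Agent.BAD.Cover.Ramify

/-!
# The residue field of the cover

The reduced generator `H` generates over the residue field of the base an extension of degree
`d`: the powers of `H` below `d` have different orders modulo `d` at a glued point.
-/

set_option autoImplicit false

attribute [local instance 10000] SubalgebraClass.toAlgebra HahnSeries.powerSeriesAlgebra

noncomputable section

open AlgebraicCurve

namespace Fermat.BAD.Cover

open Fermat.FF Fermat.JAC Fermat.RED.Model Fermat.BAD

/-- A primitive root of unity of order prime to the residue characteristic stays primitive in the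
residue field. -/
theorem isPrimitiveRoot_map {L k : Type*} [Field L] [Field k] {A : ValuationSubring L}
    (π : A →+* k) {n : ℕ} (hn : (n : k) ≠ 0) {ζ : A} (hζ : IsPrimitiveRoot (ζ : L) n) :
    IsPrimitiveRoot (π ζ) n := by
  have h1 : ζ ^ n = 1 := Subtype.ext (by push_cast; exact hζ.pow_eq_one)
  refine (IsPrimitiveRoot.iff_def _ _).mpr ⟨by rw [← map_pow, h1, map_one], fun l hl => ?_⟩
  by_contra hnd
  have hne : (ζ : L) ^ l ≠ 1 := fun h => hnd ((hζ.pow_eq_one_iff_dvd l).mp h)
  have hsum : ∑ i ∈ Finset.range n, (ζ ^ l) ^ i = 0 := by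
    refine ((mul_eq_zero (a := ζ ^ l - 1)).mp ?_).resolve_left
      (fun h => hne (by rw [← SubmonoidClass.coe_pow, sub_eq_zero.mp h]; rfl))
    rw [mul_geom_sum, ← pow_mul, mul_comm, pow_mul, h1, one_pow, sub_self]
  have := congrArg π hsum
  rw [map_sum, map_zero] at this
  simp only [map_pow, hl, one_pow, Finset.sum_const, Finset.card_range, nsmul_one] at this
  exact hn this

variable {L : Type*} [Field L] {A : ValuationSubring L}
variable {k : Type*} [Field k] [IsAlgClosed L] [IsAlgClosed k]
variable {F₀ : Type*} [Field F₀] [Algebra L F₀]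
variable {π : A →+* k} {ι₀ : Bool → F₀ →+* LaurentSeries L}
  {K₀ : IntermediateField k (LaurentSeries k)}
variable [FF.IsFunctionField L F₀] [FF.IsFunctionField k K₀]

namespace Data

variable {X : Degen π ι₀ K₀} {F : Type*} [Field F] [Algebra L F] [FF.IsFunctionField L F]
variable (D : Data X F)

/-- `H` is algebraic over the residue field of the base. -/
theorem isIntegral_H (b : Bool) : IsIntegral K₀ (D.H b) :=
  IsIntegral.of_pow D.C.d_pos (by rw [← D.coe_r]; exact isIntegral_algebraMap (x := D.r b))

/-- The field generated by the reduced generator. -/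
def Kb (b : Bool) : IntermediateField k (LaurentSeries k) :=
  (IntermediateField.adjoin K₀ {D.H b}).restrictScalars k

/-- The residue field of the base lies in that of the cover. -/
theorem le_Kb (b : Bool) : K₀ ≤ D.Kb b := fun z hz =>
  (IntermediateField.adjoin K₀ {D.H b}).algebraMap_mem ⟨z, hz⟩

/-- `H` lies in the field it generates. -/
theorem H_mem (b : Bool) : D.H b ∈ D.Kb b :=
  IntermediateField.mem_adjoin_simple_self K₀ (D.H b)

/-- The residue extension is finite. -/
instance finite_Kb (b : Bool) : FiniteDimensional K₀ (IntermediateField.adjoin K₀ {D.H b}) :=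
  IntermediateField.adjoin.finiteDimensional (D.isIntegral_H b)

/-- The residue field of the cover is a function field over `k`. -/
instance isFunctionField_Kb (b : Bool) : FF.IsFunctionField k (D.Kb b) :=
  (isFunctionField_of_finite_extension (K := k) (F := K₀) (IntermediateField.adjoin K₀ {D.H b}) :)

/-- The inclusion of the residue field of the base. -/
def φK (b : Bool) : K₀ →ₐ[k] D.Kb b := IntermediateField.inclusion (D.le_Kb b)

/-- The inclusion does not change series. -/
theorem coe_φK (b : Bool) (z : K₀) : ((D.φK b z : D.Kb b) : LaurentSeries k) = z := rfl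

/-- The reduced generator as an element. -/
def HK (b : Bool) : D.Kb b := ⟨D.H b, D.H_mem b⟩

/-- `H ^ d = r` in the residue field of the cover. -/
theorem HK_pow (b : Bool) : D.HK b ^ D.C.d = D.φK b (D.r b) :=
  Subtype.ext (by rw [SubmonoidClass.coe_pow, coe_φK, coe_r]; rfl)

/-- The reduced generator is nonzero in the residue field. -/
theorem HK_ne (b : Bool) : D.HK b ≠ 0 := fun h => D.H_ne b (congrArg Subtype.val h)

/-- The orders of the members of a line at a place above. -/
theorem d_mul_ord (b : Bool) (w : Place k (D.Kb b)) {y : K₀} (hy : y ≠ 0) (i : ℕ) :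
    (D.C.d : ℤ) * w.ord (D.φK b y * D.HK b ^ i) =
      (w.ramificationIndexAlong (D.φK b) : ℤ) *
        ((D.C.d : ℤ) * (below (D.φK b) w).ord y + (i : ℤ) * (below (D.φK b) w).ord (D.r b)) := by
  rw [← FF.ord_pow, mul_pow, ← pow_mul, mul_comm i, pow_mul, HK_pow, ← map_pow, ← map_pow,
    ← map_mul, ord_below, Place.ord_mul _ (pow_ne_zero _ hy) (pow_ne_zero _ (D.r_ne b)),
    FF.ord_pow, FF.ord_pow]

/-- The powers of the reduced generator are independent over the residue field of the base. -/
theorem indep (b : Bool) (y : Fin D.C.d → K₀)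
    (h : ∑ i : Fin D.C.d, ((y i : K₀) : LaurentSeries k) * D.H b ^ (i : ℕ) = 0) (i : Fin D.C.d) :
    y i = 0 := by
  classical
  by_contra hi
  obtain ⟨s, hs⟩ : (glued X b).Nonempty := by
    rw [← Finset.card_pos, card_glued, Finset.card_pos]; exact D.S_ne
  obtain ⟨w, hw⟩ := below_surjective (D.φK b) s
  set f : Fin D.C.d → D.Kb b := fun l => D.φK b (y l) * D.HK b ^ (l : ℕ) with hf
  have hf0 : ∀ {l}, y l ≠ 0 → f l ≠ 0 := fun hl =>
    mul_ne_zero ((map_ne_zero (D.φK b)).mpr hl) (pow_ne_zero _ (D.HK_ne b))
  -- the term of least order at a glued point cannot cancel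
  obtain ⟨j, hj, hmin⟩ := Finset.exists_min_image (Finset.univ.filter fun l => y l ≠ 0)
    (fun l => w.ord (f l)) ⟨i, by simpa using hi⟩
  have hj' : y j ≠ 0 := (Finset.mem_filter.mp hj).2
  obtain ⟨-, hne⟩ := ord_sum_eq (s := Finset.univ) (f := f) (j := j) w (Finset.mem_univ j)
    (hf0 hj') fun l _ hlj => by
      rcases eq_or_ne (y l) 0 with hl | hl
      · simp only [hf, hl, map_zero, zero_mul]; exact ordGE_zero _ _
      have h1 := hmin l (by simpa using hl)
      refine ordGE_iff.mpr (.inr ((lt_of_le_of_ne h1 fun he => ?_)))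
      have e1 := D.d_mul_ord b w hl l
      have e2 := D.d_mul_ord b w hj' j
      rw [show w.ord (D.φK b (y l) * D.HK b ^ (l : ℕ)) = w.ord (f l) from rfl, ← he] at e1
      rw [show w.ord (D.φK b (y j) * D.HK b ^ (j : ℕ)) = w.ord (f j) from rfl, e1,
        mul_right_inj' (by exact_mod_cast (ramificationIndexAlong_pos (D.φK b) w).ne'), hw] at e2
      have hlj' : (l : ℕ) ≠ (j : ℕ) := fun e => hlj (Fin.ext e)
      rcases Nat.lt_or_gt_of_ne hlj' with hlt | hlt
      · refine D.ord_coprime b hs (i := j - l) (by omega) (by omega)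
          ⟨s.ord (y l) - s.ord (y j), ?_⟩
        rw [Nat.cast_sub hlt.le]; linarith
      · refine D.ord_coprime b hs (i := l - j) (by omega) (by omega)
          ⟨s.ord (y j) - s.ord (y l), ?_⟩
        rw [Nat.cast_sub hlt.le]; linarith
  exact hne (Subtype.ext (by
    simp only [hf, AddSubmonoidClass.coe_finsetSum, MulMemClass.coe_mul, SubmonoidClass.coe_pow]
    exact h))

/-- The reduced generator has degree `d` over the residue field of the base. -/
theorem natDegree_minpoly (b : Bool) : (minpoly K₀ (D.H b)).natDegree = D.C.d := by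
  refine le_antisymm ?_ ?_
  · have hm := Polynomial.monic_X_pow_sub_C (D.r b) D.C.d_ne_zero
    have h := minpoly.degree_le_of_ne_zero K₀ (D.H b) hm.ne_zero (by
      rw [map_sub, map_pow, Polynomial.aeval_X, Polynomial.aeval_C]
      exact sub_eq_zero.mpr (D.coe_r b).symm)
    have := Polynomial.natDegree_le_natDegree h
    rwa [Polynomial.natDegree_X_pow_sub_C] at this
  · by_contra hlt
    push Not at hlt
    set P := minpoly K₀ (D.H b)
    have h0 := D.indep b (fun i => P.coeff i) (by
      have := minpoly.aeval K₀ (D.H b)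
      rw [Polynomial.aeval_def, Polynomial.eval₂_eq_sum_range' _ hlt] at this
      rw [Fin.sum_univ_eq_sum_range (fun i => ((P.coeff i : K₀) : LaurentSeries k) * D.H b ^ i)]
      exact this) ⟨P.natDegree, hlt⟩
    exact Polynomial.leadingCoeff_ne_zero.mpr (minpoly.ne_zero (D.isIntegral_H b)) h0

/-- The powers of `H` below `d` span the residue field of the cover. -/
theorem exists_expand (b : Bool) {z : LaurentSeries k} (hz : z ∈ D.Kb b) :
    ∃ y : Fin D.C.d → K₀, z = ∑ i : Fin D.C.d, ((y i : K₀) : LaurentSeries k) *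
      D.H b ^ (i : ℕ) := by
  let pb := IntermediateField.adjoin.powerBasis (D.isIntegral_H b)
  let x : IntermediateField.adjoin K₀ {D.H b} := ⟨z, hz⟩
  have hd : pb.dim = D.C.d := D.natDegree_minpoly b
  have h := pb.basis.sum_repr x
  refine ⟨fun i => pb.basis.repr x (Fin.cast hd.symm i), ?_⟩
  have h2 : z = ∑ l : Fin pb.dim, ((pb.basis.repr x l : K₀) : LaurentSeries k) *
      D.H b ^ (l : ℕ) := by
    have := congrArg Subtype.val h
    simp only [pb.basis_eq_pow, AddSubmonoidClass.coe_finsetSum] at this
    exact this.symm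
  rw [h2]
  exact (Equiv.sum_comp (finCongr hd.symm) _).symm

/-- The root of unity in the residue field. -/
def ζk : k := π ⟨D.C.ζ, mem_of_pow_eq_one D.C.d_ne_zero D.C.hζ.pow_eq_one⟩

/-- The reduced root of unity is primitive of order `d`. -/
theorem ζk_prim : IsPrimitiveRoot D.ζk D.C.d := isPrimitiveRoot_map π D.d_ne_res D.C.hζ

/-- The residue field of the cover has an automorphism over that of the base multiplying the
reduced generator by `ζ`. -/
theorem exists_δK (b : Bool) :
    ∃ δ : D.Kb b ≃ₐ[k] D.Kb b, (∀ x, δ (D.φK b x) = D.φK b x) ∧ δ (D.HK b) = D.ζk • D.HK b := by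
  let E := IntermediateField.adjoin K₀ {D.H b}
  let pb : PowerBasis K₀ E := IntermediateField.adjoin.powerBasis (D.isIntegral_H b)
  -- `ζ H` is another root of `X ^ d - r`
  let c : E := ⟨((D.φK b (algebraMap k K₀ D.ζk)) : LaurentSeries k) * D.H b,
    mul_mem (SetLike.coe_mem (D.φK b (algebraMap k K₀ D.ζk))) (D.H_mem b)⟩
  have hroot : Polynomial.aeval c (minpoly K₀ pb.gen) = 0 := by
    have hmin : minpoly K₀ (D.H b) = Polynomial.X ^ D.C.d - Polynomial.C (D.r b) := by
      refine (Polynomial.eq_of_monic_of_dvd_of_natDegree_le (minpoly.monic (D.isIntegral_H b))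
        (Polynomial.monic_X_pow_sub_C (D.r b) D.C.d_ne_zero) (minpoly.dvd _ _ (by
          rw [map_sub, map_pow, Polynomial.aeval_X, Polynomial.aeval_C]
          exact sub_eq_zero.mpr (D.coe_r b).symm))
        (by rw [D.natDegree_minpoly, Polynomial.natDegree_X_pow_sub_C])).symm
    rw [show minpoly K₀ pb.gen = minpoly K₀ (D.H b) from
        (minpoly.algebraMap_eq (A := K₀) (algebraMap E (LaurentSeries k)).injective pb.gen).symm,
      hmin, map_sub, map_pow, Polynomial.aeval_X, Polynomial.aeval_C, sub_eq_zero]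
    refine Subtype.ext ?_
    change (((D.φK b (algebraMap k K₀ D.ζk)) : LaurentSeries k) * D.H b) ^ D.C.d =
      (D.r b : LaurentSeries k)
    rw [mul_pow, ← SubmonoidClass.coe_pow, ← map_pow, ← map_pow, D.ζk_prim.pow_eq_one, map_one,
      map_one, OneMemClass.coe_one, one_mul, coe_r]
  let δ₀ : E →ₐ[K₀] E := pb.lift c hroot
  let δ₁ : E ≃ₐ[K₀] E := AlgEquiv.ofBijective δ₀
    ⟨δ₀.injective, LinearMap.surjective_of_injective (f := δ₀.toLinearMap) δ₀.injective⟩
  refine ⟨(δ₁.restrictScalars k : E ≃ₐ[k] E), fun x => δ₁.commutes x, ?_⟩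
  refine (pb.lift_gen c hroot).trans (Subtype.ext ?_)
  change _ = ((D.ζk • D.HK b : D.Kb b) : LaurentSeries k)
  rw [Algebra.smul_def, MulMemClass.coe_mul]
  rfl

/-- The residue extension as a cyclic Kummer extension. -/
def cycK (b : Bool) : Cyclic k K₀ (D.Kb b) where
  φ := D.φK b
  d := D.C.d
  d_ne := D.d_ne_res
  g := D.HK b
  g_ne := D.HK_ne b
  e := D.r b
  g_pow := D.HK_pow b
  δ := (D.exists_δK b).choose
  ζ := D.ζk
  hζ := D.ζk_prim
  δ_φ := (D.exists_δK b).choose_spec.1
  δ_g := (D.exists_δK b).choose_spec.2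
  gen := fun z => by
    obtain ⟨y, hy⟩ := D.exists_expand b z.2
    refine ⟨y, Subtype.ext ?_⟩
    rw [hy, AddSubmonoidClass.coe_finsetSum]
    rfl

/-- The residue extension has degree `d`. -/
theorem finrankAlong_φK (b : Bool) : finrankAlong k (D.φK b) = D.C.d := by
  change Module.finrank K₀ (IntermediateField.adjoin K₀ {D.H b}) = _
  rw [IntermediateField.adjoin.finrank (D.isIntegral_H b), natDegree_minpoly]

end Data

end Fermat.BAD.Cover

end
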