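import Fermat.Agent.BAD.Cover.Degen
import Fermat.Agent.BAD.Engine.Diamond

/-!
# Symmetries of the cover

A semilinear automorphism of the cover lying over a symmetry of the base is a symmetry of the
cover; integrality is decided on `d`-th powers, line by line.
-/

set_option autoImplicit false

attribute [local instance 10000] SubalgebraClass.toAlgebra HahnSeries.powerSeriesAlgebra

noncomputable section

open AlgebraicCurve

namespace Fermat.BAD.Cover

open Fermat.FF Fermat.JAC Fermat.RED.Model Fermat.BAD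

variable {L : Type*} [Field L] {A : ValuationSubring L}
variable {k : Type*} [Field k] [IsAlgClosed L] [IsAlgClosed k]
variable {F₀ : Type*} [Field F₀] [Algebra L F₀]
variable {π : A →+* k} {ι₀ : Bool → F₀ →+* LaurentSeries L}
  {K₀ : IntermediateField k (LaurentSeries k)}
variable [FF.IsFunctionField L F₀] [FF.IsFunctionField k K₀]

/-- The identity symmetry. -/
def idSym (X : Degen π ι₀ K₀) : Sym X where
  s := 1
  τ _ := 1
  base := RingEquiv.refl k
  τ_base _ := rfl
  e := Equiv.refl Bool
  mapsInt b f hf := by rw [one_smul]; exact hf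
  red_eq b f _ := by rw [one_smul, one_smul]; rfl
  A0_fixed := one_smul _ _
  B_fixed _ := one_smul _ _

namespace Data

variable {X : Degen π ι₀ K₀} {F : Type*} [Field F] [Algebra L F] [FF.IsFunctionField L F]
variable (D : Data X F)

/-- The reduction of a function from the base. -/
theorem redT_phi (b : Bool) {x : F₀} (hx : x ∈ gInt π (ι₀ b)) :
    D.redT b (D.C.φ x) = D.φT (X.red b x) :=
  Subtype.ext (D.red_phi b hx)

/-- If a function reduces to zero, so do all its lines. -/
theorem redT_line_eq_zero {b : Bool} {f : F} (hint : f ∈ gInt π (D.ι b))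
    (h0 : D.redT b f = 0) {h : Fin D.C.d → F₀} (hf : f = ∑ i : Fin D.C.d, D.C.line i (h i))
    (i : Fin D.C.d) : gRed π (D.ι b) (D.C.line i (h i)) = 0 := by
  have h1 := congrArg Subtype.val h0
  change gRed π (D.ι b) f = 0 at h1
  rw [D.red_eq_sum b hf hint] at h1
  have h2 := D.indep b _ h1 i
  rw [(D.line_red b _ (D.lines_int b hf hint i)).2]
  change (D.coef b i (h i) : LaurentSeries k) * _ = 0
  rw [h2, ZeroMemClass.coe_zero, zero_mul]

variable (s : SemilinearAut L F) (s₀ : Sym X) (hs : ∀ x, s • D.C.φ x = D.C.φ (s₀.s • x))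

include hs

/-- The `d`-th power of the image of a member of a line comes from the base. -/
theorem line_smul_pow (i : ℕ) (h : F₀) :
    (s • D.C.line i h) ^ D.C.d = D.C.φ (s₀.s • (h ^ D.C.d * D.C.e ^ i)) := by
  rw [← smul_pow', D.C.line_pow, hs]

/-- The symmetry preserves integrality on a line, carrying component `b` to `e b`. -/
theorem smul_line_int {b : Bool} {i : ℕ} {h : F₀} (hint : D.C.line i h ∈ gInt π (D.ι b)) :
    s • D.C.line i h ∈ gInt π (D.ι (s₀.e b)) :=
  (D.scal _).mem_of_pow_mem D.C.d_ne_zero (by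
    rw [D.line_smul_pow s s₀ hs, D.phi_mem_iff]
    refine s₀.mapsInt b _ ((D.phi_mem_iff b).mp ?_)
    rw [← D.C.line_pow]
    exact pow_mem hint _)

/-- The symmetry carries functions integral at `b` to functions integral at `e b`. -/
theorem smul_int {b : Bool} {f : F} (hint : f ∈ gInt π (D.ι b)) :
    s • f ∈ gInt π (D.ι (s₀.e b)) := by
  obtain ⟨h, hf⟩ := D.C.exists_lines f
  have := fun i => D.smul_line_int s s₀ hs (D.lines_int b hf hint i)
  rw [hf, Finset.smul_sum]
  exact sum_mem fun i _ => this i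

/-- Conversely, a function is integral at `b` if its image is integral at `e b`. -/
theorem int_of_smul {b : Bool} {f : F} (hint : s • f ∈ gInt π (D.ι (s₀.e b))) :
    f ∈ gInt π (D.ι b) := by
  obtain ⟨h, hf⟩ := D.C.exists_lines (s • f)
  have hl := fun i => D.lines_int _ hf hint i
  have e : f = ∑ i : Fin D.C.d, s⁻¹ • D.C.line i (h i) := by
    rw [← Finset.smul_sum, ← hf, inv_smul_smul]
  rw [e]
  refine sum_mem fun i _ => (D.scal b).mem_of_pow_mem D.C.d_ne_zero ?_
  have e2 : s⁻¹ • D.C.φ (h i ^ D.C.d * D.C.e ^ (i : ℕ)) =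
      D.C.φ (s₀.s⁻¹ • (h i ^ D.C.d * D.C.e ^ (i : ℕ))) := by
    rw [inv_smul_eq_iff, hs, smul_inv_smul]
  rw [← smul_pow', D.C.line_pow, e2, D.phi_mem_iff]
  refine s₀.int_of_int ?_
  rw [smul_inv_smul, ← D.phi_mem_iff, ← D.C.line_pow]
  exact pow_mem (hl i) _

/-- A symmetry sends integral functions with zero reduction to such functions on the image
component. -/
theorem red_zero_of_zero {b : Bool} {f : F} (hint : f ∈ gInt π (D.ι b)) (h0 : D.redT b f = 0) :
    D.redT (s₀.e b) (s • f) = 0 := by
  obtain ⟨h, hf⟩ := D.C.exists_lines f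
  have hl : ∀ i : Fin D.C.d, gRed π (D.ι (s₀.e b)) (s • D.C.line i (h i)) = 0 := by
    intro i
    have hi := D.lines_int b hf hint i
    have hx : h i ^ D.C.d * D.C.e ^ (i : ℕ) ∈ gInt π (ι₀ b) :=
      (D.phi_mem_iff b).mp (by rw [← D.C.line_pow]; exact pow_mem hi _)
    have h1 : X.red b (h i ^ D.C.d * D.C.e ^ (i : ℕ)) = 0 := Subtype.ext (by
      rw [← D.red_phi b hx, ← D.C.line_pow, gRed_pow hi, D.redT_line_eq_zero hint h0 hf i,
        zero_pow D.C.d_ne_zero]
      rfl)
    refine eq_zero_of_pow_eq_zero (n := D.C.d) ?_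
    rw [← gRed_pow (D.smul_line_int s s₀ hs hi), D.line_smul_pow s s₀ hs,
      D.red_phi _ (s₀.mapsInt b _ hx), s₀.red_eq b _ hx, h1, smul_zero]
    rfl
  refine Subtype.ext ?_
  change gRed π _ (s • f) = 0
  rw [hf, Finset.smul_sum, gRed_sum _ fun i _ => D.smul_line_int s s₀ hs (D.lines_int b hf hint i)]
  exact Finset.sum_eq_zero fun i _ => hl i

omit hs in
/-- A chosen preimage under reduction. -/
def pre (b : Bool) (z : D.Kb true) : F := (D.exists_gRed b z.2).choose

omit hs in
/-- The chosen preimage is integral. -/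
theorem pre_int (b : Bool) (z : D.Kb true) : D.pre b z ∈ gInt π (D.ι b) :=
  (D.exists_gRed b z.2).choose_spec.1

omit hs in
/-- The chosen preimage reduces to the given element. -/
theorem redT_pre (b : Bool) (z : D.Kb true) : D.redT b (D.pre b z) = z :=
  Subtype.ext (D.exists_gRed b z.2).choose_spec.2

/-- Functions with equal reductions have images with equal reductions. -/
theorem redT_smul_congr {b : Bool} {f f' : F} (hf : f ∈ gInt π (D.ι b))
    (hf' : f' ∈ gInt π (D.ι b)) (h : D.redT b f = D.redT b f') :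
    D.redT (s₀.e b) (s • f) = D.redT (s₀.e b) (s • f') := by
  have h0 : D.redT b (f - f') = 0 := by
    simp only [← degen_red] at h ⊢
    rw [D.degen.red_sub hf hf', h, sub_self]
  have h1 := D.red_zero_of_zero s s₀ hs (sub_mem hf hf') h0
  rw [smul_sub] at h1
  simp only [← degen_red] at h1 ⊢
  rwa [D.degen.red_sub (D.smul_int s s₀ hs hf) (D.smul_int s s₀ hs hf'), sub_eq_zero] at h1

/-- The induced map on the residue field. -/
def tauRing (b : Bool) : D.Kb true →+* D.Kb true where
  toFun z := D.redT (s₀.e b) (s • D.pre b z)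
  map_one' := by
    rw [D.redT_smul_congr s s₀ hs (D.pre_int b 1) (one_mem _) (by
      rw [redT_pre, ← degen_red, D.degen.red_one]), smul_one, ← degen_red, D.degen.red_one]
  map_mul' z z' := by
    rw [D.redT_smul_congr s s₀ hs (D.pre_int b _)
      (mul_mem (D.pre_int b z) (D.pre_int b z')) (by
        rw [redT_pre, ← degen_red, D.degen.red_mul (D.pre_int b z) (D.pre_int b z'), degen_red,
          degen_red, redT_pre, redT_pre]),
      smul_mul', ← degen_red, D.degen.red_mul (D.smul_int s s₀ hs (D.pre_int b z))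
        (D.smul_int s s₀ hs (D.pre_int b z'))]
    rfl
  map_zero' := by
    rw [D.redT_smul_congr s s₀ hs (D.pre_int b 0) (zero_mem _) (by
      rw [redT_pre, ← degen_red, D.degen.red_zero]), smul_zero, ← degen_red, D.degen.red_zero]
  map_add' z z' := by
    rw [D.redT_smul_congr s s₀ hs (D.pre_int b _)
      (add_mem (D.pre_int b z) (D.pre_int b z')) (by
        rw [redT_pre, ← degen_red, D.degen.red_add (D.pre_int b z) (D.pre_int b z'), degen_red,
          degen_red, redT_pre, redT_pre]),
      smul_add, ← degen_red, D.degen.red_add (D.smul_int s s₀ hs (D.pre_int b z))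
        (D.smul_int s s₀ hs (D.pre_int b z'))]
    rfl

/-- The induced map on reductions. -/
theorem tauRing_redT {b : Bool} {f : F} (hf : f ∈ gInt π (D.ι b)) :
    D.tauRing s s₀ hs b (D.redT b f) = D.redT (s₀.e b) (s • f) :=
  D.redT_smul_congr s s₀ hs (D.pre_int b _) hf (D.redT_pre b _)

/-- The induced map is bijective. -/
theorem tauRing_bijective (b : Bool) : Function.Bijective (D.tauRing s s₀ hs b) := by
  refine ⟨RingHom.injective _, fun z => ?_⟩
  obtain ⟨f, hf, hfz⟩ := D.exists_gRed (s₀.e b) z.2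
  have hint : s⁻¹ • f ∈ gInt π (D.ι b) := D.int_of_smul s s₀ hs (by rwa [smul_inv_smul])
  refine ⟨D.redT b (s⁻¹ • f), ?_⟩
  rw [D.tauRing_redT s s₀ hs hint, smul_inv_smul]
  exact Subtype.ext hfz

/-- The induced map extends the residual map of the base. -/
theorem tauRing_φT (b : Bool) (z : K₀) :
    D.tauRing s s₀ hs b (D.φT z) = D.φT (s₀.τ b • z) := by
  obtain ⟨x, hx, rfl⟩ := exists_red X b z
  rw [← D.redT_phi b hx, D.tauRing_redT s s₀ hs ((D.phi_mem_iff b).mpr hx), hs,
    D.redT_phi _ (s₀.mapsInt b x hx), s₀.red_eq b x hx]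

/-- The induced semilinear automorphism of the residue field. -/
def tau (b : Bool) : SemilinearAut k (D.Kb true) :=
  ⟨(RingEquiv.ofBijective (D.tauRing s s₀ hs b) (D.tauRing_bijective s s₀ hs b), s₀.base),
      fun c => by
    change D.tauRing s s₀ hs b (algebraMap k (D.Kb true) c) = algebraMap k (D.Kb true) (s₀.base c)
    rw [← D.φT.commutes c, D.tauRing_φT s s₀ hs, SemilinearAut.smul_algebraMap, s₀.τ_base,
      D.φT.commutes]⟩

/-- The induced automorphism extends the residual map of the base. -/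
theorem tau_φT (b : Bool) (z : K₀) : D.tau s s₀ hs b • D.φT z = D.φT (s₀.τ b • z) :=
  D.tauRing_φT s s₀ hs b z

/-- **A symmetry of the cover.** A semilinear automorphism of the cover lying over a symmetry of the
base, as a symmetry of `D.degen`. -/
def sym : Sym D.degen where
  s := s
  τ := D.tau s s₀ hs
  base := s₀.base
  τ_base _ := rfl
  e := s₀.e
  mapsInt _ _ hf := D.smul_int s s₀ hs hf
  red_eq _ f hf := (D.tauRing_redT s s₀ hs hf).symm
  A0_fixed := by
    rw [degen_A0]
    have h := Fermat.GR.Corr.pullbackAlong_smul (g := s₀.s) (g' := s) D.C.φ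
      (isIntegral_toRingHom D.C.φ) (fun x => hs x) X.A0
    rw [s₀.A0_fixed] at h
    exact h.symm
  B_fixed b := by
    rw [degen_B]
    have h := Fermat.GR.Corr.pullbackAlong_smul (g := s₀.τ b) (g' := D.tau s s₀ hs b) D.φT
      (isIntegral_toRingHom D.φT) (fun z => D.tau_φT s s₀ hs b z) X.B
    rw [s₀.B_fixed b] at h
    exact h.symm

/-- The symmetry of the cover permutes the components as that of the base does. -/
theorem sym_e : (D.sym s s₀ hs).e = s₀.e := rfl

/-- A glued point stays fixed if all those of the base do. -/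
theorem sym_pt (he : s₀.e = Equiv.refl Bool) (hτ : ∀ t ∈ X.S, s₀.τ true • t = t)
    {w : Place k (D.Kb true)} (hw : w ∈ D.degen.S) : (D.sym s s₀ hs).pt w = w := by
  obtain ⟨t, ht, rfl⟩ := D.mem_degen_S.mp hw
  rw [Sym.pt, if_pos (by rw [sym_e, he]; rfl)]
  refine D.upPlace_unique (b := true) (s := t) ht ?_
  change below D.φT ((D.sym s s₀ hs).τ true • D.upPlace t) = t
  have h := Fermat.GR.Corr.restrictAlong_smul (g := s₀.τ true) (g' := D.tau s s₀ hs true) D.φT
    (isIntegral_toRingHom D.φT) (fun z => D.tau_φT s s₀ hs true z) (D.upPlace t)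
  refine h.trans ?_
  change s₀.τ true • below D.φT (D.upPlace t) = t
  rw [below_upPlace]
  exact hτ t ht

/-- The residual map is trivial if reductions are unchanged. -/
theorem sym_τ_eq_one {b : Bool} (hb : s₀.base = 1) (he : s₀.e b = b)
    (h : ∀ f ∈ gInt π (D.ι b), gRed π (D.ι b) (s • f) = gRed π (D.ι b) f) :
    (D.sym s s₀ hs).τ b = 1 := by
  refine Subtype.ext (Prod.ext (RingEquiv.ext fun z => Subtype.ext ?_) hb)
  change (D.redT (s₀.e b) (s • D.pre b z) : LaurentSeries k) = (z : LaurentSeries k)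
  rw [he]
  change gRed π (D.ι b) (s • D.pre b z) = (z : LaurentSeries k)
  rw [h _ (D.pre_int b z)]
  exact congrArg Subtype.val (D.redT_pre b z)

omit hs in
/-- Two symmetries with the same reductions on one component have the same residual map there. -/
theorem sym_τ_congr {s s' : SemilinearAut L F} {s₀ s₀' : Sym X}
    (hs : ∀ x, s • D.C.φ x = D.C.φ (s₀.s • x)) (hs' : ∀ x, s' • D.C.φ x = D.C.φ (s₀'.s • x))
    {b : Bool} (hb : s₀.base = s₀'.base) (he : s₀.e b = s₀'.e b)
    (h : ∀ f ∈ gInt π (D.ι b),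
      gRed π (D.ι (s₀.e b)) (s • f) = gRed π (D.ι (s₀.e b)) (s' • f)) :
    (D.sym s s₀ hs).τ b = (D.sym s' s₀' hs').τ b := by
  refine Subtype.ext (Prod.ext (RingEquiv.ext fun z => Subtype.ext ?_) hb)
  change (D.redT (s₀.e b) (s • D.pre b z) : LaurentSeries k) =
    (D.redT (s₀'.e b) (s' • D.pre b z) : LaurentSeries k)
  rw [← he]
  exact h _ (D.pre_int b z)

end Data

end Fermat.BAD.Cover

end
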